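import Fermat.Agent.Curve.Basics.Degree
import Fermat.Prelude.Def_AlgebraicCurve_Correspondence

/-!
# Maps between function fields: fundamental identity and norm formula
-/

set_option autoImplicit false

noncomputable section

open WithZero AlgebraicCurve IntermediateField

namespace FermatAgent.Curve

variable {K F F' : Type*} [Field K] [Field F] [Field F'] [Algebra K F] [Algebra K F']
  [IsAlgClosed K] [IsFunctionField1 K F] [IsFunctionField1 K F']

section Relative

variable [Algebra F F'] [IsScalarTower K F F']

omit [IsAlgClosed K] [IsFunctionField1 K F] [IsFunctionField1 K F'] in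
theorem transcendental_algebraMap {x : F} (hx : Transcendental K x) :
    Transcendental K (algebraMap F F' x) := fun h =>
  hx ((isAlgebraic_algebraMap_iff (algebraMap F F').injective).mp h)

omit [IsAlgClosed K] [IsFunctionField1 K F] [IsFunctionField1 K F'] in
/-- `K(x) ≅ K(x')` for the image `x'` of `x`. -/
theorem adjoin_map_algebraMap (x : F) :
    K⟮x⟯.map (IsScalarTower.toAlgHom K F F') = K⟮algebraMap F F' x⟯ := by
  rw [adjoin_map, Set.image_singleton]; rfl

/-- The isomorphism `K(x) ≅ K(x')`. -/
def adjoinEquiv (x : F) : K⟮x⟯ ≃ₐ[K] K⟮algebraMap F F' x⟯ :=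
  (K⟮x⟯.equivMap (IsScalarTower.toAlgHom K F F')).trans
    (IntermediateField.equivOfEq (adjoin_map_algebraMap x))

omit [IsAlgClosed K] [IsFunctionField1 K F] [IsFunctionField1 K F'] in

omit [IsAlgClosed K] [IsFunctionField1 K F] [IsFunctionField1 K F'] in
theorem finrank_adjoin_algebraMap (x : F) :
    Module.finrank K⟮algebraMap F F' x⟯ F' = Module.finrank K⟮x⟯ F' :=
  (Algebra.finrank_eq_of_equiv_equiv (adjoinEquiv (F' := F') x).toRingEquiv (RingEquiv.refl F')
    (RingHom.ext fun _ => rfl)).symm

omit [IsAlgClosed K] [IsFunctionField1 K F] [IsFunctionField1 K F'] in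
variable (K) (F) (F') in
theorem finiteDimensional_of_scalarTower [IsFunctionField1 K F] [IsFunctionField1 K F'] :
    FiniteDimensional F F' := by
  have : IsScalarTower K F F' := ‹_›
  obtain ⟨t, ht, -⟩ := IsFunctionField1.exists_finite (K := K) (F := F)
  have := finiteDimensional_adjoin_of_transcendental (K := K) (transcendental_algebraMap (F' := F') ht)
  have : FiniteDimensional K⟮t⟯ F' :=
    Module.Finite.of_equiv_equiv (adjoinEquiv t).symm.toRingEquiv (RingEquiv.refl F')
      (RingHom.ext fun a => congrArg (fun b : K⟮algebraMap F F' t⟯ => (b : F'))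
        ((adjoinEquiv t).apply_symm_apply a))
  exact Module.Finite.of_restrictScalars_finite K⟮t⟯ F F'

omit [IsAlgClosed K] [IsFunctionField1 K F] [IsFunctionField1 K F'] in
variable (K) (F) (F') in
theorem isIntegral_of_scalarTower [IsFunctionField1 K F] [IsFunctionField1 K F'] :
    Algebra.IsIntegral F F' :=
  have := finiteDimensional_of_scalarTower K F F'
  Algebra.IsIntegral.of_finite F F'

variable [Algebra.IsIntegral F F']

omit [IsFunctionField1 K F] in
theorem inertiaDeg_eq_one (w : Place K F') : w.inertiaDeg F = 1 := by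
  have h : Function.Bijective (algebraMap (w.restrict F).ResidueField w.ResidueField) := by
    refine ⟨(algebraMap (w.restrict F).ResidueField w.ResidueField).injective, fun z => ?_⟩
    obtain ⟨a, rfl⟩ := (residueField_algebraMap_bijective w).2 z
    exact ⟨algebraMap K _ a,
      (IsScalarTower.algebraMap_apply K (w.restrict F).ResidueField w.ResidueField a).symm⟩
  show Module.finrank (w.restrict F).ResidueField w.ResidueField = 1
  rw [← Module.finrank_self (w.restrict F).ResidueField]
  exact ((AlgEquiv.ofBijective (Algebra.ofId _ w.ResidueField) h).toLinearEquiv.finrank_eq).symm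

theorem valueAt_restrict (w : Place K F') (f : F) :
    valueAt (w.restrict F) f = valueAt w (algebraMap F F' f) := by
  by_cases hf : f ∈ (w.restrict F).toValuationSubring
  · symm
    apply valueAt_eq_of
    rcases valueAt_spec _ hf with h | h
    · left
      conv_lhs => rw [h]
      rw [← IsScalarTower.algebraMap_apply]
    · right
      rw [IsScalarTower.algebraMap_apply K F F', ← map_sub, w.ord_restrict]
      exact mul_pos (by exact_mod_cast w.ramificationIndex_pos (F := F)) h
  · rw [valueAt_of_notMem _ hf, valueAt_of_notMem _ (mt w.mem_restrict_iff.mpr hf)]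

theorem sum_ramificationIndex_le (v : Place K F) :
    ∑ w ∈ v.fiber F', w.ramificationIndex F ≤ Module.finrank F F' := by
  have := finiteDimensional_of_scalarTower K F F'
  refine sum_step_le_finrank (v.fiber F') (fun w => w.ramificationIndex F) v.ord ?_
  intro w hw c _
  rw [w.ord_restrict, Place.mem_fiber.mp hw]

theorem sum_ramificationIndex (v : Place K F) :
    ∑ w ∈ v.fiber F', w.ramificationIndex F = Module.finrank F F' := by
  classical
  have := finiteDimensional_of_scalarTower K F F'
  obtain ⟨x, hx0, hx⟩ := exists_ord_eq v 1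
  have hxt : Transcendental K x := transcendental_of_ord_ne_zero v (by omega)
  have h1 := sum_ord_zeros hxt
  have h2 := sum_ord_zeros (transcendental_algebraMap (F' := F') hxt)
  rw [finrank_adjoin_algebraMap, ← Module.finrank_mul_finrank K⟮x⟯ F F'] at h2
  have hdec : zerosFinset (K := K) (algebraMap F F' x) =
      (zerosFinset (K := K) x).biUnion fun u => u.fiber F' := by
    ext w
    simp only [mem_zerosFinset, Finset.mem_biUnion, Place.mem_fiber, exists_eq_right']
    rw [w.ord_restrict]
    have := w.ramificationIndex_pos (F := F)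
    exact ⟨fun h => pos_of_mul_pos_right h (by omega), fun h => mul_pos (by omega) h⟩
  rw [hdec, Finset.sum_biUnion (fun u _ u' _ hne => Finset.disjoint_left.mpr fun w hw hw' =>
    hne ((Place.mem_fiber.mp hw).symm.trans (Place.mem_fiber.mp hw')))] at h2
  set m := Module.finrank F F' with hm
  have h3 : ∀ u ∈ zerosFinset (K := K) x, ∑ w ∈ u.fiber F', w.ord (algebraMap F F' x) =
      u.ord x * ((∑ w ∈ u.fiber F', w.ramificationIndex F : ℕ) : ℤ) := fun u _ => by
    rw [Nat.cast_sum, Finset.mul_sum]
    exact Finset.sum_congr rfl fun w hw => by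
      rw [w.ord_restrict, Place.mem_fiber.mp hw, mul_comm]
  rw [Finset.sum_congr rfl h3, Nat.cast_mul, ← h1, Finset.sum_mul] at h2
  have h4 := (Finset.sum_eq_sum_iff_of_le fun u hu => mul_le_mul_of_nonneg_left
    (by exact_mod_cast sum_ramificationIndex_le (F' := F') u) (mem_zerosFinset.mp hu).le).mp h2
  have h5 := h4 v (mem_zerosFinset.mpr (by omega))
  rw [hx, one_mul, one_mul] at h5
  exact_mod_cast h5

instance instSumRamificationInertia : SumRamificationInertia K F F' where
  sum_ramificationIndex_mul_inertiaDeg v := by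
    rw [← sum_ramificationIndex (F' := F') v, Nat.cast_sum]
    exact Finset.sum_congr rfl fun w _ => by rw [inertiaDeg_eq_one, Nat.cast_one, mul_one]

theorem exists_restrict_eq (v : Place K F) : ∃ w : Place K F', w.restrict F = v := by
  have := finiteDimensional_of_scalarTower K F F'
  by_contra! h
  have h1 := sum_ramificationIndex (F' := F') v
  rw [Finset.sum_eq_zero fun w hw => absurd (Place.mem_fiber.mp hw) (h w)] at h1
  have : 0 < Module.finrank F F' := Module.finrank_pos
  omega

section Norm

variable [Module.Finite F F']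

omit [IsAlgClosed K] [IsFunctionField1 K F] [IsFunctionField1 K F'] [IsScalarTower K F F']
  [Algebra.IsIntegral F F'] in
theorem norm_inv' (g : F') : Algebra.norm F g⁻¹ = (Algebra.norm F g)⁻¹ := by
  rcases eq_or_ne g 0 with rfl | hg
  · simp
  · exact eq_inv_of_mul_eq_one_left (by rw [← map_mul, inv_mul_cancel₀ hg, map_one])

omit [IsAlgClosed K] [IsFunctionField1 K F] [IsFunctionField1 K F'] [IsScalarTower K F F']
  [Algebra.IsIntegral F F'] in
theorem norm_zpow' (g : F') (n : ℤ) : Algebra.norm F (g ^ n) = Algebra.norm F g ^ n := by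
  rcases n.eq_nat_or_neg with ⟨m, rfl | rfl⟩
  · simp [zpow_natCast]
  · simp [zpow_natCast, norm_inv']

omit [IsFunctionField1 K F] [Module.Finite F F'] in
theorem mem_of_forall_mem_fiber {v : Place K F}
    {b : StepIndex (v.fiber F') (fun w => w.ramificationIndex F) → F'}
    (hb : IsStepFamily (v.fiber F') (fun w => w.ramificationIndex F) b)
    (c : StepIndex (v.fiber F') (fun w => w.ramificationIndex F) → F)
    (hx : ∀ w ∈ v.fiber F', (∑ j, algebraMap F F' (c j) * b j) ∈ w.toValuationSubring)
    (j : StepIndex (v.fiber F') (fun w => w.ramificationIndex F)) :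
    c j ∈ v.toValuationSubring := by
  by_contra hc
  have hneg := ord_neg_of_notMem v hc
  have hc0 : c j ≠ 0 := fun h => hc (h ▸ zero_mem _)
  obtain ⟨w, hw, -, hlt⟩ := hb.exists_ord_sum_lt v.ord
    (fun w hw x _ => by rw [w.ord_restrict, Place.mem_fiber.mp hw]) c hc0
  have h1 := ord_nonneg_of_mem' w (hx w hw)
  have h2 : (w.ramificationIndex F : ℤ) * (v.ord (c j) + 1) ≤ 0 :=
    mul_nonpos_of_nonneg_of_nonpos (Int.natCast_nonneg _) (by omega)
  omega

/-- For `f` integral above `v`, the norm is integral at `v`, and a non-unit above gives a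
non-unit norm. -/
theorem ord_norm_of_mem {v : Place K F} {f : F'} (hf0 : f ≠ 0)
    (hf : ∀ w ∈ v.fiber F', f ∈ w.toValuationSubring) :
    0 ≤ v.ord (Algebra.norm F f) ∧
      ∀ w ∈ v.fiber F', 0 < w.ord f → 0 < v.ord (Algebra.norm F f) := by
  classical
  set S := v.fiber F' with hS
  obtain ⟨b, hb⟩ := exists_isStepFamily S (fun w => w.ramificationIndex F)
  have hli := hb.linearIndependent v.ord fun w hw x _ => by
    rw [w.ord_restrict, Place.mem_fiber.mp hw]
  have hcard : Fintype.card (StepIndex S fun w => w.ramificationIndex F) = Module.finrank F F' := by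
    rw [card_stepIndex]
    exact sum_ramificationIndex v
  have : Nonempty (StepIndex S fun w => w.ramificationIndex F) := by
    rw [← Fintype.card_pos_iff, hcard]
    exact Module.finrank_pos
  set B := basisOfLinearIndependentOfCardEqFinrank hli hcard with hB
  have hBb : ∀ j, B j = b j := fun j => by
    rw [hB, coe_basisOfLinearIndependentOfCardEqFinrank]
  have hent : ∀ i j, Algebra.leftMulMatrix B f i j ∈ v.toValuationSubring := by
    intro i j
    refine mem_of_forall_mem_fiber hb (fun k => Algebra.leftMulMatrix B f k j) (fun w hw => ?_) i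
    have : ∑ k, algebraMap F F' (Algebra.leftMulMatrix B f k j) * b k = f * b j := by
      simp only [Algebra.leftMulMatrix_eq_repr_mul, ← Algebra.smul_def, ← hBb]
      exact B.sum_repr _
    rw [this]
    refine mul_mem (hf w hw) ((mem_iff_ord_nonneg' w).mpr ?_)
    rcases eq_or_ne w j.1.1 with rfl | hne
    · rw [hb.ord_self]; exact Int.natCast_nonneg _
    · rw [hb.ord_other j w hw hne]; exact Int.natCast_nonneg _
  set Mo : Matrix _ _ v.toValuationSubring := fun i j => ⟨_, hent i j⟩ with hMo
  have hMmap : Algebra.leftMulMatrix B f = Mo.map (algebraMap v.toValuationSubring F) := rfl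
  set q := (Algebra.leftMulMatrix B f).charpoly with hq
  have hqmem : ∀ i, q.coeff i ∈ v.toValuationSubring := fun i => by
    rw [hq, hMmap, Matrix.charpoly_map, Polynomial.coeff_map]
    exact (Mo.charpoly.coeff i).2
  have hdet : Algebra.norm F f = (Algebra.leftMulMatrix B f).det := Algebra.norm_eq_matrix_det B f
  have hq0 : Algebra.norm F f =
      (-1) ^ Fintype.card (StepIndex S fun w => w.ramificationIndex F) * q.coeff 0 := by
    rw [hdet, Matrix.det_eq_sign_charpoly_coeff]
  have hordq : v.ord (Algebra.norm F f) = v.ord (q.coeff 0) := by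
    rw [hq0]
    rcases neg_one_pow_eq_or F (Fintype.card (StepIndex S fun w => w.ramificationIndex F))
      with h | h
    · rw [h, one_mul]
    · rw [h, neg_one_mul, ord_neg]
  refine ⟨by rw [hordq]; exact ord_nonneg_of_mem' v (hqmem 0), fun w hw hpos => ?_⟩
  have hroot : Polynomial.aeval f q = 0 := by
    apply Algebra.leftMulMatrix_injective B
    rw [map_zero, ← Polynomial.aeval_algHom_apply, hq, Matrix.aeval_self_charpoly]
  rw [← q.X_mul_divX_add, map_add, map_mul, Polynomial.aeval_X, Polynomial.aeval_C,
    add_eq_zero_iff_eq_neg] at hroot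
  have hg : Polynomial.aeval f q.divX ∈ w.toValuationSubring := by
    rw [Polynomial.aeval_eq_sum_range]
    refine sum_mem fun i _ => ?_
    rw [Algebra.smul_def]
    refine mul_mem ?_ (pow_mem (hf w hw) i)
    rw [Polynomial.coeff_divX, ← w.mem_restrict_iff, Place.mem_fiber.mp hw]
    exact hqmem _
  have hq00 : q.coeff 0 ≠ 0 := fun h => by
    rw [h, mul_zero, Algebra.norm_eq_zero_iff] at hq0
    exact hf0 hq0
  have hg0 : Polynomial.aeval f q.divX ≠ 0 := fun h => by
    rw [h, mul_zero, eq_comm, neg_eq_zero, _root_.map_eq_zero] at hroot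
    exact hq00 hroot
  have h1 := congrArg w.ord hroot
  rw [w.ord_mul hf0 hg0, ord_neg, w.ord_restrict, Place.mem_fiber.mp hw] at h1
  have h2 := ord_nonneg_of_mem' w hg
  rw [hordq]
  exact pos_of_mul_pos_right
    (show 0 < (w.ramificationIndex F : ℤ) * v.ord (q.coeff 0) by omega) (Int.natCast_nonneg _)

theorem ord_norm_eq_sum (v : Place K F) {f : F'} (hf : f ≠ 0) :
    v.ord (Algebra.norm F f) = ∑ w ∈ v.fiber F', w.ord f := by
  classical
  set S := v.fiber F' with hS
  have hmem : ∀ {g : F'}, (∀ w ∈ S, 0 ≤ w.ord g) → ∀ w ∈ S, g ∈ w.toValuationSubring :=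
    fun h w hw => (mem_iff_ord_nonneg' w).mpr (h w hw)
  have hN0 : ∀ {g : F'}, g ≠ 0 → Algebra.norm F g ≠ 0 := fun hg =>
    Algebra.norm_ne_zero_iff.mpr hg
  -- units above `v`
  have hunit : ∀ {g : F'}, g ≠ 0 → (∀ w ∈ S, w.ord g = 0) → v.ord (Algebra.norm F g) = 0 := by
    intro g hg h
    have h1 := (ord_norm_of_mem (v := v) hg (hmem fun w hw => (h w hw).ge)).1
    have h2 := (ord_norm_of_mem (v := v) (inv_ne_zero hg)
      (hmem fun w hw => by rw [w.ord_inv, h w hw, neg_zero])).1
    have h3 : Algebra.norm F g⁻¹ = (Algebra.norm F g)⁻¹ := norm_inv' g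
    rw [h3, v.ord_inv] at h2
    omega
  choose π hπ0 hπ using fun w : Place K F' =>
    exists_forall_ord_eq S (fun u => if u = w then 1 else 0)
  have hexp : ∀ {g : F'}, g ≠ 0 →
      v.ord (Algebra.norm F g) = ∑ w ∈ S, w.ord g * v.ord (Algebra.norm F (π w)) := by
    intro g hg
    set P := ∏ w ∈ S, π w ^ w.ord g with hP
    have hP0 : P ≠ 0 := Finset.prod_ne_zero_iff.mpr fun w _ => zpow_ne_zero _ (hπ0 w)
    have hordP : ∀ u ∈ S, u.ord P = u.ord g := fun u hu => by
      rw [hP, ord_prod u S _ fun w _ => zpow_ne_zero _ (hπ0 w)]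
      simp only [Place.ord_zpow, hπ _ u hu, mul_ite, mul_one, mul_zero]
      rw [Finset.sum_ite_eq]
      simp [hu]
    have hgP := hunit (div_ne_zero hg hP0) fun u hu => by
      rw [ord_div u hg hP0, hordP u hu, sub_self]
    rw [div_eq_mul_inv, map_mul, norm_inv', ← div_eq_mul_inv, ord_div v (hN0 hg) (hN0 hP0), hP,
      map_prod,
      ord_prod v S _ fun w _ => hN0 (zpow_ne_zero _ (hπ0 w))] at hgP
    simp only [norm_zpow', Place.ord_zpow] at hgP
    omega
  have hpos : ∀ w ∈ S, 1 ≤ v.ord (Algebra.norm F (π w)) := fun w hw =>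
    (ord_norm_of_mem (v := v) (hπ0 w)
      (hmem fun u hu => by rw [hπ w u hu]; split_ifs <;> omega)).2 w hw
        (by rw [hπ w w hw, if_pos rfl]; omega)
  obtain ⟨t, ht0, ht⟩ := exists_ord_eq v 1
  have htm : v.ord (Algebra.norm F (algebraMap F F' t)) = Module.finrank F F' := by
    rw [Algebra.norm_algebraMap, ord_pow', ht, mul_one]
  rw [hexp ((_root_.map_ne_zero _).mpr ht0), ← sum_ramificationIndex (F' := F') v,
    Nat.cast_sum] at htm
  have he : ∀ w ∈ S, w.ord (algebraMap F F' t) = w.ramificationIndex F := fun w hw => by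
    rw [w.ord_restrict, Place.mem_fiber.mp hw, ht, mul_one]
  have hone : ∀ w ∈ S, v.ord (Algebra.norm F (π w)) = 1 := by
    have h4 := (Finset.sum_eq_sum_iff_of_le
      (f := fun w : Place K F' => (w.ramificationIndex F : ℤ))
      (g := fun w => w.ord (algebraMap F F' t) * v.ord (Algebra.norm F (π w)))
      (fun w hw => by
        rw [he w hw]
        exact le_mul_of_one_le_right (Int.natCast_nonneg _) (hpos w hw))).mp htm.symm
    intro w hw
    have h5 := h4 w hw
    rw [he w hw] at h5
    have hne : (w.ramificationIndex F : ℤ) ≠ 0 := by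
      have := w.ramificationIndex_pos (F := F); omega
    exact mul_left_cancel₀ hne (by rw [← h5, mul_one])
  rw [hexp hf]
  exact Finset.sum_congr rfl fun w hw => by rw [hone w hw, mul_one]

theorem pushforwardNormFormula : Divisor.PushforwardNormFormula K F F' := by
  classical
  intro f hf D hD v
  rw [Divisor.pushforward_apply, ord_norm_eq_sum v hf, ← Finset.sum_filter]
  rw [← Finset.sum_filter_ne_zero (s := v.fiber F')]
  refine Finset.sum_congr ?_ fun w _ => by rw [inertiaDeg_eq_one, hD, Nat.cast_one, mul_one]
  ext w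
  simp only [Finset.mem_filter, Finsupp.mem_support_iff, hD, Place.mem_fiber]
  exact and_comm

end Norm

end Relative

variable (φ : F →ₐ[K] F')

omit [IsAlgClosed K] in
theorem finiteAlong : FiniteAlong K φ := by
  let := algebraAlong φ
  have := isScalarTower_along φ
  exact finiteDimensional_of_scalarTower K F F'

omit [IsAlgClosed K] in
theorem isIntegralAlong : φ.toRingHom.IsIntegral := by
  let := algebraAlong φ
  have := isScalarTower_along φ
  exact (isIntegral_of_scalarTower K F F').isIntegral

omit [IsAlgClosed K] in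
theorem finrankAlong_pos : 0 < finrankAlong K φ := by
  let := algebraAlong φ
  have := isScalarTower_along φ
  have := finiteDimensional_of_scalarTower K F F'
  exact Module.finrank_pos

theorem fundamentalIdentityAlong (hφ : φ.toRingHom.IsIntegral) :
    FundamentalIdentityAlong K φ hφ := by
  let := algebraAlong φ
  have := isScalarTower_along φ
  have := isIntegral_along φ hφ
  exact inferInstanceAs (FundamentalIdentity K F F')

theorem normFormulaAlong (hfin : FiniteAlong K φ) : NormFormulaAlong K φ hfin := by
  let := algebraAlong φ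
  have := isScalarTower_along φ
  have : Module.Finite F F' := hfin
  have := isIntegral_along φ (isIntegralAlong φ)
  exact pushforwardNormFormula

omit [IsFunctionField1 K F] in
theorem inertiaDegAlong_eq_one (hφ : φ.toRingHom.IsIntegral) (w : Place K F') :
    w.inertiaDegAlong φ hφ = 1 := by
  let := algebraAlong φ
  have := isScalarTower_along φ
  have := isIntegral_along φ hφ
  exact inertiaDeg_eq_one w

omit [IsAlgClosed K] in
theorem ramificationIndexAlong_pos (w : Place K F') : 0 < w.ramificationIndexAlong φ := by
  let := algebraAlong φ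
  have := isScalarTower_along φ
  have := isIntegral_along φ (isIntegralAlong φ)
  exact w.ramificationIndex_pos

theorem sum_ramificationIndexAlong (hφ : φ.toRingHom.IsIntegral) (v : Place K F) :
    ∑ w ∈ Place.fiberAlong φ hφ v, w.ramificationIndexAlong φ = finrankAlong K φ := by
  let := algebraAlong φ
  have := isScalarTower_along φ
  have := isIntegral_along φ hφ
  exact sum_ramificationIndex v

theorem exists_restrictAlong_eq (hφ : φ.toRingHom.IsIntegral) (v : Place K F) :
    ∃ w : Place K F', w.restrictAlong φ hφ = v := by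
  let := algebraAlong φ
  have := isScalarTower_along φ
  have := isIntegral_along φ hφ
  exact exists_restrict_eq v

theorem valueAt_restrictAlong (hφ : φ.toRingHom.IsIntegral) (w : Place K F') (f : F) :
    valueAt (w.restrictAlong φ hφ) f = valueAt w (φ f) := by
  let := algebraAlong φ
  have := isScalarTower_along φ
  have := isIntegral_along φ hφ
  exact valueAt_restrict w f

theorem pushforwardAlong_divisorOf (hφ : φ.toRingHom.IsIntegral) {f : F'} (hf : f ≠ 0) :
    letI := algebraAlong φ
    Divisor.pushforwardAlong φ hφ (divisorOf f) = divisorOf (Algebra.norm F f) := by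
  let := algebraAlong φ
  have := isScalarTower_along φ
  have := isIntegral_along φ hφ
  have := finiteDimensional_of_scalarTower K F F'
  exact Divisor.pushforward_eq_of_normFormula pushforwardNormFormula hf (divisorOf_apply f)
    (divisorOf_apply _)

theorem pullbackAlong_divisorOf (hφ : φ.toRingHom.IsIntegral) (f : F) :
    Divisor.pullbackAlong φ hφ (divisorOf f) = divisorOf (φ f) := by
  let := algebraAlong φ
  have := isScalarTower_along φ
  have := isIntegral_along φ hφ
  exact Finsupp.ext fun w => Divisor.pullback_apply_eq_ord (divisorOf_apply f) w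

end FermatAgent.Curve
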