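import Fermat.Agent.Curve.Basics.Place

/-!
# Families of functions adapted to finitely many places
-/

set_option autoImplicit false

noncomputable section

open WithZero AlgebraicCurve

namespace FermatAgent.Curve

variable {K F : Type*} [Field K] [Field F] [Algebra K F]

/-- Index set `{(w, i) | w ∈ S, i < e w}`. -/
abbrev StepIndex (S : Finset (Place K F)) (e : Place K F → ℕ) : Type _ :=
  (w : {w // w ∈ S}) × Fin (e w.1)

theorem card_stepIndex (S : Finset (Place K F)) (e : Place K F → ℕ) :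
    Fintype.card (StepIndex S e) = ∑ w ∈ S, e w := by
  simp only [Fintype.card_sigma, Fintype.card_fin]
  exact Finset.sum_coe_sort S e

/-- `b (w, i)` has order `i` at `w` and order `e w'` at the other places `w'` of `S`. -/
structure IsStepFamily (S : Finset (Place K F)) (e : Place K F → ℕ)
    (b : StepIndex S e → F) : Prop where
  ne_zero : ∀ j, b j ≠ 0
  ord_self : ∀ j : StepIndex S e, j.1.1.ord (b j) = (j.2 : ℕ)
  ord_other : ∀ j : StepIndex S e, ∀ w ∈ S, w ≠ j.1.1 → w.ord (b j) = e w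

theorem exists_isStepFamily (S : Finset (Place K F)) (e : Place K F → ℕ) :
    ∃ b : StepIndex S e → F, IsStepFamily S e b := by
  classical
  choose b hb0 hb using fun j : StepIndex S e => exists_forall_ord_eq S
    (fun w => if w = j.1.1 then ((j.2 : ℕ) : ℤ) else e w)
  refine ⟨b, hb0, fun j => ?_, fun j w hw hne => ?_⟩
  · rw [hb j _ j.1.2, if_pos rfl]
  · rw [hb j w hw, if_neg hne]

variable {S : Finset (Place K F)} {e : Place K F → ℕ} {b : StepIndex S e → F}
variable {E : Type*} [Field E] [Algebra E F]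

/-- The order of a combination of a step family with coefficients whose order at each `w ∈ S` is
`e w * d`: it is small at some `w ∈ S`. -/
theorem IsStepFamily.exists_ord_sum_lt (hb : IsStepFamily S e b) (d : E → ℤ)
    (hd : ∀ w ∈ S, ∀ x : E, x ≠ 0 → w.ord (algebraMap E F x) = e w * d x)
    (c : StepIndex S e → E) {j₀ : StepIndex S e} (hj₀ : c j₀ ≠ 0) :
    ∃ w ∈ S, (∑ j, algebraMap E F (c j) * b j) ≠ 0 ∧
      w.ord (∑ j, algebraMap E F (c j) * b j) < e w * (d (c j₀) + 1) := by
  classical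
  set f : StepIndex S e → F := fun j => algebraMap E F (c j) * b j with hf
  set s := Finset.univ.filter fun j : StepIndex S e => c j ≠ 0 with hs
  obtain ⟨j₁, hj₁, hmin⟩ := s.exists_min_image (fun j => d (c j)) ⟨j₀, by simp [hs, hj₀]⟩
  set w := j₁.1.1 with hw
  have hwS : w ∈ S := j₁.1.2
  obtain ⟨j₂, hj₂, hmin₂⟩ := s.exists_min_image (fun j => w.ord (f j)) ⟨j₁, hj₁⟩
  have hcne : ∀ j ∈ s, c j ≠ 0 := fun j hj => (Finset.mem_filter.mp hj).2
  have hfne : ∀ j ∈ s, f j ≠ 0 := fun j hj =>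
    mul_ne_zero ((_root_.map_ne_zero _).mpr (hcne j hj)) (hb.ne_zero j)
  have hford : ∀ j ∈ s, w.ord (f j) = e w * d (c j) + w.ord (b j) := fun j hj => by
    rw [w.ord_mul ((_root_.map_ne_zero _).mpr (hcne j hj)) (hb.ne_zero j), hd w hwS _ (hcne j hj)]
  have hj₁ord : w.ord (f j₁) < e w * (d (c j₁) + 1) := by
    rw [hford j₁ hj₁, hw, hb.ord_self, mul_add, mul_one]
    have := j₁.2.isLt
    omega
  have hlt : w.ord (f j₂) < e w * (d (c j₁) + 1) := lt_of_le_of_lt (hmin₂ j₁ hj₁) hj₁ord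
  have hlow : ∀ j ∈ s, j.1.1 ≠ w → e w * (d (c j₁) + 1) ≤ w.ord (f j) := fun j hj hne => by
    rw [hford j hj, hb.ord_other j w hwS (Ne.symm hne), mul_add, mul_one]
    have : (e w : ℤ) * d (c j₁) ≤ e w * d (c j) :=
      mul_le_mul_of_nonneg_left (hmin j hj) (Int.natCast_nonneg _)
    omega
  have hj₂w : j₂.1.1 = w := by
    by_contra hne
    exact absurd (hlow j₂ hj₂ hne) (not_le.mpr hlt)
  have huniq : ∀ j ∈ s, j ≠ j₂ → w.ord (f j₂) < w.ord (f j) := fun j hj hne => by
    by_cases hjw : j.1.1 = w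
    · refine lt_of_le_of_ne (hmin₂ j hj) fun heq => hne ?_
      rw [hford j₂ hj₂, hford j hj] at heq
      have h1 : w.ord (b j) = (j.2 : ℕ) := by rw [← hjw]; exact hb.ord_self j
      have h2 : w.ord (b j₂) = (j₂.2 : ℕ) := by rw [← hj₂w]; exact hb.ord_self j₂
      rw [h1, h2] at heq
      have l1 : (j.2 : ℕ) < e w := lt_of_lt_of_eq j.2.isLt (congrArg e hjw)
      have l2 : (j₂.2 : ℕ) < e w := lt_of_lt_of_eq j₂.2.isLt (congrArg e hj₂w)
      have h3 : ((e w : ℤ) * d (c j₂) + ((j₂.2 : ℕ) : ℤ)) % (e w : ℤ)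
          = ((e w : ℤ) * d (c j) + ((j.2 : ℕ) : ℤ)) % (e w : ℤ) := by rw [heq]
      rw [Int.mul_add_emod_self_left, Int.mul_add_emod_self_left,
        Int.emod_eq_of_lt (by omega) (by omega), Int.emod_eq_of_lt (by omega) (by omega)] at h3
      obtain ⟨⟨u, hu⟩, i⟩ := j
      obtain ⟨⟨u₂, hu₂⟩, i₂⟩ := j₂
      simp only at hjw hj₂w h3
      subst hjw
      subst hj₂w
      have : i₂ = i := Fin.ext (by omega)
      rw [this]
    · exact lt_of_lt_of_le hlt (hlow j hj hjw)
  have hval : w.adicValuation (∑ j, f j) = w.adicValuation (f j₂) := by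
    refine Valuation.map_sum_eq_of_lt _ (Finset.mem_univ j₂) fun j hj => ?_
    rw [Finset.mem_sdiff, Finset.mem_singleton] at hj
    by_cases hjs : j ∈ s
    · rw [w.adicValuation_eq_exp_neg_ord (hfne j hjs),
        w.adicValuation_eq_exp_neg_ord (hfne j₂ hj₂), exp_lt_exp]
      have := huniq j hjs hj.2
      omega
    · have : c j = 0 := by simpa [hs] using hjs
      simp only [hf, this, map_zero, zero_mul]
      exact zero_lt_iff.mpr (w.adicValuation_ne_zero (hfne j₂ hj₂))
  refine ⟨w, hwS, fun h0 => ?_, ?_⟩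
  · rw [show (∑ j, f j) = 0 from h0, map_zero] at hval
    exact w.adicValuation_ne_zero (hfne j₂ hj₂) hval.symm
  · show w.ord (∑ j, f j) < _
    have hord : w.ord (∑ j, f j) = w.ord (f j₂) := by simp only [Place.ord, hval]
    rw [hord]
    refine lt_of_lt_of_le hlt ?_
    exact mul_le_mul_of_nonneg_left (by linarith [hmin j₀ (by simp [hs, hj₀])])
      (Int.natCast_nonneg _)

theorem IsStepFamily.linearIndependent (hb : IsStepFamily S e b) (d : E → ℤ)
    (hd : ∀ w ∈ S, ∀ x : E, x ≠ 0 → w.ord (algebraMap E F x) = e w * d x) :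
    LinearIndependent E b := by
  rw [Fintype.linearIndependent_iff]
  intro g hg j
  by_contra hne
  obtain ⟨w, -, hsum, -⟩ := hb.exists_ord_sum_lt d hd g hne
  exact hsum (by simpa only [Algebra.smul_def] using hg)

theorem sum_step_le_finrank [FiniteDimensional E F] (S : Finset (Place K F))
    (e : Place K F → ℕ) (d : E → ℤ)
    (hd : ∀ w ∈ S, ∀ x : E, x ≠ 0 → w.ord (algebraMap E F x) = e w * d x) :
    ∑ w ∈ S, e w ≤ Module.finrank E F := by
  obtain ⟨b, hb⟩ := exists_isStepFamily S e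
  rw [← card_stepIndex]
  exact (hb.linearIndependent d hd).fintype_card_le_finrank

end FermatAgent.Curve
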