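import Fermat.Agent.Curve.Basics.Value
import Fermat.Agent.Curve.Basics.Independence

/-!
# The degree formula and principal divisors
-/

set_option autoImplicit false

noncomputable section

open WithZero AlgebraicCurve IntermediateField

namespace FermatAgent.Curve

variable {K F : Type*} [Field K] [Field F] [Algebra K F] [IsAlgClosed K] [IsFunctionField1 K F]

omit [IsFunctionField1 K F] [IsAlgClosed K] in
theorem ord_eq_zero_of_valuation_eq_one (w : Place K F) {f : F}
    (h : w.toValuationSubring.valuation f = 1) : w.ord f = 0 := by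
  have h1 := ord_nonneg_of_mem' w ((w.toValuationSubring.valuation_le_one_iff f).mp h.le)
  have h2 := ord_nonneg_of_mem' w ((w.toValuationSubring.valuation_le_one_iff f⁻¹).mp
    (by rw [map_inv₀, h, inv_one]))
  rw [w.ord_inv] at h2
  omega

omit [IsFunctionField1 K F] [IsAlgClosed K] in
theorem valuation_lt_one_of_ord_pos (w : Place K F) {f : F} (h : 0 < w.ord f) :
    w.toValuationSubring.valuation f < 1 :=
  (ValuationSubring.mem_nonunits_iff _).mp ((mem_nonunits_iff_ord_pos w).mpr (Or.inr h))

omit [IsFunctionField1 K F] [IsAlgClosed K] in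
theorem exists_ord_eq_mul_of_mem_adjoin (x : F) {c : F} (hc : c ∈ K⟮x⟯) (hc0 : c ≠ 0) :
    ∃ k : ℤ, ∀ w : Place K F, 0 < w.ord x → w.ord c = k * w.ord x := by
  obtain ⟨k, hk⟩ := exists_valuation_mem_adjoin_eq x hc hc0
  refine ⟨k, fun w hw => ?_⟩
  have hx0 : x ≠ 0 := by rintro rfl; simp at hw
  have h := hk w.toValuationSubring w.algebraMap_mem' (valuation_lt_one_of_ord_pos w hw)
  have h0 : w.ord (c / x ^ k) = 0 := ord_eq_zero_of_valuation_eq_one w (by
    rw [map_div₀, map_zpow₀, h, div_self (zpow_ne_zero _ ((Valuation.ne_zero_iff _).mpr hx0))])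
  rw [ord_div w hc0 (zpow_ne_zero _ hx0), w.ord_zpow] at h0
  omega

omit [IsAlgClosed K] in
theorem sum_toNat_ord_le_finrank {x : F} (hx : Transcendental K x) (S : Finset (Place K F))
    (hS : ∀ w ∈ S, 0 < w.ord x) :
    ∑ w ∈ S, (w.ord x).toNat ≤ Module.finrank K⟮x⟯ F := by
  classical
  have := finiteDimensional_adjoin_of_transcendental (K := K) hx
  refine sum_step_le_finrank S (fun w => (w.ord x).toNat) (fun c : K⟮x⟯ =>
    if hc : (c : F) ≠ 0 then (exists_ord_eq_mul_of_mem_adjoin x c.2 hc).choose else 0) ?_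
  intro w hw c hc
  have hc' : (c : F) ≠ 0 := by simpa using hc
  rw [dif_pos hc', Int.toNat_of_nonneg (hS w hw).le, mul_comm]
  exact (exists_ord_eq_mul_of_mem_adjoin x c.2 hc').choose_spec w (hS w hw)

theorem finite_setOf_ord_pos (f : F) : {v : Place K F | 0 < v.ord f}.Finite := by
  by_cases hf : Transcendental K f
  · by_contra hinf
    obtain ⟨T, hT, hcard⟩ :=
      (show {v : Place K F | 0 < v.ord f}.Infinite from hinf).exists_subset_card_eq
        (Module.finrank K⟮f⟯ F + 1)
    have h := sum_toNat_ord_le_finrank hf T fun w hw => hT hw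
    have h1 : ∑ _w ∈ T, 1 ≤ ∑ w ∈ T, (w.ord f).toNat :=
      Finset.sum_le_sum fun w hw => by have : 0 < w.ord f := hT hw; omega
    simp [hcard] at h1
    omega
  · convert Set.finite_empty
    ext v
    simp only [Set.mem_ofPred_eq, Set.mem_empty_iff_false, iff_false]
    exact fun h => hf (transcendental_of_ord_ne_zero v (by omega))

theorem finite_setOf_ord_ne_zero (f : F) : {v : Place K F | v.ord f ≠ 0}.Finite := by
  refine ((finite_setOf_ord_pos f).union (finite_setOf_ord_pos f⁻¹)).subset fun v hv => ?_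
  simp only [Set.mem_ofPred_eq, Set.mem_union, v.ord_inv] at hv ⊢
  omega

theorem finite_setOf_notMem (f : F) : {v : Place K F | f ∉ v.toValuationSubring}.Finite :=
  (finite_setOf_ord_ne_zero f).subset fun v hv => (ord_neg_of_notMem v hv).ne

/-- The divisor of a function (zero for `f = 0`). -/
def divisorOf (f : F) : Divisor K F :=
  Finsupp.ofSupportFinite (fun v => v.ord f) (finite_setOf_ord_ne_zero f)

@[simp]
theorem divisorOf_apply (f : F) (v : Place K F) : divisorOf f v = v.ord f := rfl

theorem divisorOf_mul {f g : F} (hf : f ≠ 0) (hg : g ≠ 0) :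
    divisorOf (K := K) (f * g) = divisorOf f + divisorOf g :=
  Finsupp.ext fun v => v.ord_mul hf hg

theorem divisorOf_mem_principal {f : F} (hf : f ≠ 0) :
    divisorOf f ∈ Divisor.principal (K := K) (F := F) :=
  ⟨f, hf, divisorOf_apply f⟩

/-- The zeros of `f`. -/
def zerosFinset (f : F) : Finset (Place K F) :=
  (divisorOf (K := K) f).support.filter fun v => 0 < v.ord f

@[simp]
theorem mem_zerosFinset {f : F} {v : Place K F} : v ∈ zerosFinset f ↔ 0 < v.ord f := by
  simp only [zerosFinset, Finset.mem_filter, Finsupp.mem_support_iff, divisorOf_apply]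
  omega

theorem degree_eq_sum (D : Divisor K F) : Divisor.degree D = D.sum fun _ n => n := by
  induction D using Finsupp.induction with
  | zero => simp
  | single_add v n D hv hn ih =>
    rw [map_add, Divisor.degree_single, deg_eq_one v, ih,
      Finsupp.sum_add_index' (fun _ => rfl) (fun _ _ _ => rfl), Finsupp.sum_single_index rfl]
    simp

theorem degree_nonneg {D : Divisor K F} (hD : 0 ≤ D) : 0 ≤ Divisor.degree D := by
  rw [degree_eq_sum]
  exact Finset.sum_nonneg fun v _ => hD v

omit [IsAlgClosed K] [IsFunctionField1 K F] in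
theorem riemannRochSpace_mono {D D' : Divisor K F} (h : D ≤ D') :
    riemannRochSpace D ≤ riemannRochSpace D' := fun _ hf v =>
  (hf v).trans (exp_le_exp.mpr (Finsupp.le_def.mp h v))

theorem riemannRochSpace_zero :
    riemannRochSpace (0 : Divisor K F) = (Algebra.linearMap K F).range := by
  ext f
  rw [mem_riemannRochSpace_iff, LinearMap.mem_range]
  constructor
  · intro h
    rcases eq_or_ne f 0 with rfl | hf
    · exact ⟨0, map_zero _⟩
    obtain ⟨a, ha⟩ := forall_ord_nonneg_iff.mp fun v : Place K F => by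
      simpa using (h v).resolve_left hf
    exact ⟨a, ha⟩
  · rintro ⟨a, rfl⟩ v
    exact Or.inr (by simp [ord_algebraMap_const])

/-- Adding a point enlarges `L(D)` by at most one dimension. -/
theorem riemannRoch_step (D : Divisor K F) (v : Place K F)
    [Module.Finite K (riemannRochSpace D)] :
    Module.Finite K (riemannRochSpace (D + Finsupp.single v 1)) ∧
      Module.finrank K (riemannRochSpace (D + Finsupp.single v 1)) ≤
        Module.finrank K (riemannRochSpace D) + 1 := by
  classical
  obtain ⟨π, hπ0, hπ⟩ := exists_ord_eq v (D v + 1)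
  set L := riemannRochSpace (D + Finsupp.single v 1) with hL
  have hmem : ∀ f ∈ L, π * f ∈ v.toValuationSubring := by
    intro f hf
    rcases eq_or_ne f 0 with rfl | hf0
    · simp
    rw [mem_iff_ord_nonneg', v.ord_mul hπ0 hf0]
    have h := (mem_riemannRochSpace_iff.mp hf v).resolve_left hf0
    rw [Finsupp.add_apply, Finsupp.single_eq_same] at h
    omega
  let ψ : L →ₗ[K] K :=
    { toFun := fun f => valueAt v (π * f)
      map_add' := fun f g => by
        rw [Submodule.coe_add, mul_add, valueAt_add v (hmem _ f.2) (hmem _ g.2)]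
      map_smul' := fun a f => by
        rw [SetLike.val_smul, Algebra.smul_def, mul_left_comm,
          valueAt_mul v (v.algebraMap_mem' a) (hmem _ f.2), valueAt_algebraMap]
        simp }
  have hker : ∀ f : L, ψ f = 0 → (f : F) ∈ riemannRochSpace D := by
    intro f hf
    rw [mem_riemannRochSpace_iff]
    intro u
    rcases eq_or_ne (f : F) 0 with h0 | h0
    · exact Or.inl h0
    right
    have h := (mem_riemannRochSpace_iff.mp f.2 u).resolve_left h0
    rcases eq_or_ne u v with rfl | hu
    · have h' := ((valueAt_eq_zero_iff u (hmem _ f.2)).mp hf).resolve_left (mul_ne_zero hπ0 h0)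
      rw [u.ord_mul hπ0 h0] at h'
      omega
    · rwa [Finsupp.add_apply, Finsupp.single_eq_of_ne hu, add_zero] at h
  let ι : LinearMap.ker ψ →ₗ[K] riemannRochSpace D :=
    LinearMap.codRestrict _ (L.subtype.comp (LinearMap.ker ψ).subtype)
      (fun f => hker f.1 (LinearMap.mem_ker.mp f.2))
  have hι : Function.Injective ι := fun f g h =>
    Subtype.ext (Subtype.ext (congrArg (fun z : riemannRochSpace D => (z : F)) h))
  have hfin : Module.Finite K (LinearMap.ker ψ) := Module.Finite.of_injective ι hι
  have hquot : Module.Finite K (L ⧸ LinearMap.ker ψ) :=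
    Module.Finite.equiv ψ.quotKerEquivRange.symm
  have hLfin : Module.Finite K L := Module.Finite.of_submodule_quotient (LinearMap.ker ψ)
  refine ⟨hLfin, ?_⟩
  rw [← ψ.finrank_range_add_finrank_ker]
  have h1 := LinearMap.finrank_le_finrank_of_injective hι
  have h2 : Module.finrank K (LinearMap.range ψ) ≤ 1 :=
    (Submodule.finrank_le _).trans (Module.finrank_self K).le
  omega

theorem riemannRoch_aux (n : ℕ) : ∀ D : Divisor K F, 0 ≤ D → Divisor.degree D = n →
    Module.Finite K (riemannRochSpace D) ∧ Module.finrank K (riemannRochSpace D) ≤ n + 1 := by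
  induction n with
  | zero =>
    intro D hD hdeg
    have hD0 : D = 0 := by
      rw [degree_eq_sum, Finsupp.sum] at hdeg
      ext v
      by_contra hv
      have := (Finset.sum_eq_zero_iff_of_nonneg (fun v _ => hD v)).mp hdeg v
        (Finsupp.mem_support_iff.mpr hv)
      exact hv this
    subst hD0
    rw [riemannRochSpace_zero]
    exact ⟨inferInstance, by
      simpa using LinearMap.finrank_range_le (Algebra.linearMap K F)⟩
  | succ n ih =>
    intro D hD hdeg
    obtain ⟨v, hv⟩ : ∃ v, 0 < D v := by
      by_contra! h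
      have hD0 : D = 0 := Finsupp.ext fun v => le_antisymm (h v) (hD v)
      rw [hD0, map_zero] at hdeg
      omega
    set D' := D - Finsupp.single v 1 with hD'
    have hD'0 : 0 ≤ D' := fun u => by
      rw [hD', Finsupp.sub_apply]
      rcases eq_or_ne u v with rfl | hu
      · rw [Finsupp.single_eq_same]; simp; omega
      · rw [Finsupp.single_eq_of_ne hu, sub_zero]; exact hD u
    obtain ⟨h1, h2⟩ := ih D' hD'0 (by
      rw [hD', map_sub, Divisor.degree_single, deg_eq_one, hdeg]; push_cast; ring)
    have hDeq : D = D' + Finsupp.single v 1 := by rw [hD']; abel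
    obtain ⟨h3, h4⟩ := riemannRoch_step D' v
    rw [← hDeq] at h3 h4
    exact ⟨h3, by omega⟩

instance instFiniteRiemannRochSpace (D : Divisor K F) :
    Module.Finite K (riemannRochSpace D) := by
  set D' : Divisor K F := D.mapRange (max · 0) (by simp) with hD'
  have h0 : 0 ≤ D' := fun v => by simp [hD']
  have hle : D ≤ D' := fun v => by simp [hD']
  have := (riemannRoch_aux _ D' h0 (Int.toNat_of_nonneg (degree_nonneg h0)).symm).1
  exact Submodule.finiteDimensional_of_le (riemannRochSpace_mono hle)

theorem finrank_riemannRochSpace_le {D : Divisor K F} (hD : 0 ≤ D) :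
    (Module.finrank K (riemannRochSpace D) : ℤ) ≤ Divisor.degree D + 1 := by
  have h0 := degree_nonneg hD
  have h := (riemannRoch_aux _ D hD (Int.toNat_of_nonneg h0).symm).2
  omega

omit [IsAlgClosed K] [IsFunctionField1 K F] in
theorem linearIndependent_pow_of_transcendental {x : F} (hx : Transcendental K x) :
    LinearIndependent K fun i : ℕ => (⟨x, mem_adjoin_simple_self K x⟩ : K⟮x⟯) ^ i := by
  have hy : Transcendental K (⟨x, mem_adjoin_simple_self K x⟩ : K⟮x⟯) := fun h =>
    hx ((isAlgebraic_algHom_iff K⟮x⟯.val K⟮x⟯.val.injective).mpr h)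
  have h := (Polynomial.basisMonomials K).linearIndependent.map'
    (Polynomial.aeval (⟨x, mem_adjoin_simple_self K x⟩ : K⟮x⟯)).toLinearMap
    (LinearMap.ker_eq_bot.mpr (transcendental_iff_injective.mp hy))
  have heq : (fun i : ℕ => (⟨x, mem_adjoin_simple_self K x⟩ : K⟮x⟯) ^ i) =
      (Polynomial.aeval (⟨x, mem_adjoin_simple_self K x⟩ : K⟮x⟯)).toLinearMap ∘
        Polynomial.basisMonomials K := funext fun i => by simp [Polynomial.coe_basisMonomials]
  rw [heq]
  exact h

theorem exists_linearIndependent_mem {x : F} (hx : Transcendental K x) :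
    ∃ u : Fin (Module.finrank K⟮x⟯ F) → F, LinearIndependent K⟮x⟯ u ∧
      ∀ i, ∀ w : Place K F, x ∈ w.toValuationSubring → u i ∈ w.toValuationSubring := by
  classical
  have := finiteDimensional_adjoin_of_transcendental (K := K) hx
  let B := Module.finBasis K⟮x⟯ F
  let bad : Fin (Module.finrank K⟮x⟯ F) → Finset (Place K F) := fun i =>
    (finite_setOf_notMem (K := K) (B i)).toFinset.filter (fun w => x ∈ w.toValuationSubring)
  let g : Fin (Module.finrank K⟮x⟯ F) → K⟮x⟯ := fun i => ∏ w ∈ bad i,
    ((⟨x, mem_adjoin_simple_self K x⟩ : K⟮x⟯) - algebraMap K K⟮x⟯ (valueAt w x)) ^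
      (-w.ord (B i)).toNat
  have hne : ∀ a : K, x - algebraMap K F a ≠ 0 := fun a h =>
    transcendental_iff_notMem_range.mp hx ⟨a, (sub_eq_zero.mp h).symm⟩
  have hg : ∀ i, g i ≠ 0 := fun i => Finset.prod_ne_zero_iff.mpr fun w _ =>
    pow_ne_zero _ fun h => hne (valueAt w x) (congrArg Subtype.val h)
  refine ⟨fun i => (Units.mk0 _ (hg i)) • B i, B.linearIndependent.units_smul _, fun i u hu => ?_⟩
  have hcoe : (Units.mk0 _ (hg i)) • B i = (∏ w ∈ bad i,
      (x - algebraMap K F (valueAt w x)) ^ (-w.ord (B i)).toNat) * B i := by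
    rw [Units.smul_def, Units.val_mk0, Algebra.smul_def]
    congr 1
    simp [g, map_prod]
  show (Units.mk0 _ (hg i)) • B i ∈ u.toValuationSubring
  rw [hcoe]
  have hfac : ∀ w : Place K F, (x - algebraMap K F (valueAt w x)) ∈ u.toValuationSubring :=
    fun w => sub_mem hu (u.algebraMap_mem' _)
  by_cases hBu : B i ∈ u.toValuationSubring
  · exact mul_mem (prod_mem fun w _ => pow_mem (hfac w) _) hBu
  have hu' : u ∈ bad i := Finset.mem_filter.mpr ⟨(Set.Finite.mem_toFinset _).mpr hBu, hu⟩
  rw [← Finset.mul_prod_erase _ _ hu', mul_right_comm]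
  refine mul_mem ?_ (prod_mem fun w _ => pow_mem (hfac w) _)
  have hB0 : B i ≠ 0 := B.ne_zero i
  rw [mem_iff_ord_nonneg', u.ord_mul (pow_ne_zero _ (hne _)) hB0, ord_pow']
  have h1 := ord_neg_of_notMem u hBu
  have h2 : 0 < u.ord (x - algebraMap K F (valueAt u x)) :=
    (valueAt_spec u hu).resolve_left fun h => hne _ (sub_eq_zero.mpr h)
  have h3 : ((-u.ord (B i)).toNat : ℤ) * 1 ≤
      ((-u.ord (B i)).toNat : ℤ) * u.ord (x - algebraMap K F (valueAt u x)) :=
    mul_le_mul_of_nonneg_left (by omega) (Int.natCast_nonneg _)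
  omega

theorem finrank_le_sum_ord_poles {x : F} (hx : Transcendental K x) :
    (Module.finrank K⟮x⟯ F : ℤ) ≤ ∑ v ∈ zerosFinset (K := K) x⁻¹, -v.ord x := by
  classical
  set n := Module.finrank K⟮x⟯ F with hn
  obtain ⟨u, hu, humem⟩ := exists_linearIndependent_mem hx
  set P := zerosFinset (K := K) x⁻¹ with hP
  set C : Place K F → ℕ := fun w => ∑ i, (w.ord (u i)).natAbs with hC
  set p : ℤ := ∑ v ∈ P, -v.ord x with hp
  set c : ℕ := ∑ v ∈ P, C v with hc
  set l : ℕ := c + 1 with hl
  set D : Divisor K F := ∑ v ∈ P, Finsupp.single v ((l : ℤ) * -v.ord x + C v) with hD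
  have hPneg : ∀ v, v ∈ P ↔ v.ord x < 0 := fun v => by
    rw [hP, mem_zerosFinset, v.ord_inv]; omega
  have hDapp : ∀ v, D v = if v ∈ P then (l : ℤ) * -v.ord x + C v else 0 := fun v => by
    rw [hD, Finset.sum_apply']
    simp only [Finsupp.single_apply]
    rw [Finset.sum_ite_eq']
  have hD0 : 0 ≤ D := fun v => by
    rw [hDapp]
    split_ifs with hv
    · have := (hPneg v).mp hv
      have : 0 ≤ (l : ℤ) * -v.ord x := mul_nonneg (by omega) (by omega)
      simp only [Finsupp.coe_zero, Pi.zero_apply]
      omega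
    · simp
  have hdeg : Divisor.degree D = l * p + c := by
    rw [hD, map_sum]
    simp only [Divisor.degree_single, deg_eq_one, Nat.cast_one, mul_one]
    rw [Finset.sum_add_distrib, ← Finset.mul_sum, hc]
    push_cast
    rfl
  have hindep : LinearIndependent K fun q : Fin (l + 1) × Fin n =>
      (⟨x, mem_adjoin_simple_self K x⟩ : K⟮x⟯) ^ (q.1 : ℕ) • u q.2 :=
    linearIndependent_smul ((linearIndependent_pow_of_transcendental hx).comp _ Fin.val_injective) hu
  have hval : ∀ q : Fin (l + 1) × Fin n,
      (⟨x, mem_adjoin_simple_self K x⟩ : K⟮x⟯) ^ (q.1 : ℕ) • u q.2 = x ^ (q.1 : ℕ) * u q.2 :=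
    fun q => by rw [Algebra.smul_def, map_pow]; rfl
  have hmem : ∀ q : Fin (l + 1) × Fin n, x ^ (q.1 : ℕ) * u q.2 ∈ riemannRochSpace D := by
    intro q
    rw [mem_riemannRochSpace_iff]
    intro v
    rcases eq_or_ne (x ^ (q.1 : ℕ) * u q.2) 0 with h0 | h0
    · exact Or.inl h0
    right
    rw [hDapp]
    split_ifs with hv
    · rw [v.ord_mul (left_ne_zero_of_mul h0) (right_ne_zero_of_mul h0), ord_pow']
      have hx' := (hPneg v).mp hv
      have h1 : (l : ℤ) * v.ord x ≤ ((q.1 : ℕ) : ℤ) * v.ord x :=
        mul_le_mul_of_nonpos_right (by have := q.1.isLt; omega) hx'.le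
      have h2 : (v.ord (u q.2)).natAbs ≤ C v :=
        Finset.single_le_sum (f := fun i => (v.ord (u i)).natAbs) (fun _ _ => Nat.zero_le _)
          (Finset.mem_univ q.2)
      rw [mul_neg]
      omega
    · rw [neg_zero]
      rw [hPneg, not_lt, ← mem_iff_ord_nonneg'] at hv
      exact ord_nonneg_of_mem' v (mul_mem (pow_mem hv _) (humem _ v hv))
  let G : Fin (l + 1) × Fin n → riemannRochSpace D := fun q => ⟨_, hmem q⟩
  have hG : LinearIndependent K G := by
    refine LinearIndependent.of_comp (riemannRochSpace D).subtype ?_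
    convert hindep using 1
    funext q
    exact (hval q).symm
  have hcard := hG.fintype_card_le_finrank
  rw [Fintype.card_prod, Fintype.card_fin, Fintype.card_fin] at hcard
  have hbound := finrank_riemannRochSpace_le hD0
  rw [hdeg] at hbound
  have hcard' : ((l : ℤ) + 1) * n ≤ l * p + c + 1 := by
    refine le_trans ?_ hbound
    exact_mod_cast hcard
  by_contra hlt
  rw [not_le] at hlt
  have h5 : (l : ℤ) * (p + 1) ≤ (l : ℤ) * n := mul_le_mul_of_nonneg_left (by omega) (by omega)
  have hp0 : 0 ≤ p := Finset.sum_nonneg fun v hv => by have := (hPneg v).mp hv; omega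
  rw [mul_add, mul_one] at h5
  rw [add_mul, one_mul] at hcard'
  omega

omit [IsAlgClosed K] [IsFunctionField1 K F] in
theorem adjoin_simple_inv (x : F) : K⟮x⁻¹⟯ = K⟮x⟯ :=
  le_antisymm (adjoin_simple_le_iff.mpr (inv_mem (mem_adjoin_simple_self K x)))
    (adjoin_simple_le_iff.mpr (by simpa using inv_mem (mem_adjoin_simple_self K x⁻¹)))

theorem sum_ord_poles {x : F} (hx : Transcendental K x) :
    ∑ v ∈ zerosFinset (K := K) x⁻¹, -v.ord x = Module.finrank K⟮x⟯ F := by
  refine le_antisymm ?_ (finrank_le_sum_ord_poles hx)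
  have hx' : Transcendental K x⁻¹ := fun h => hx (by simpa using h.inv)
  have h := sum_toNat_ord_le_finrank hx' (zerosFinset x⁻¹) fun w hw => mem_zerosFinset.mp hw
  have he : Module.finrank K⟮x⁻¹⟯ F = Module.finrank K⟮x⟯ F := by rw [adjoin_simple_inv]
  rw [he] at h
  calc ∑ v ∈ zerosFinset (K := K) x⁻¹, -v.ord x
      = ∑ v ∈ zerosFinset (K := K) x⁻¹, ((v.ord x⁻¹).toNat : ℤ) :=
        Finset.sum_congr rfl fun v hv => by
          have := mem_zerosFinset.mp hv
          rw [v.ord_inv] at this ⊢
          omega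
    _ ≤ _ := by exact_mod_cast h

theorem sum_ord_zeros {x : F} (hx : Transcendental K x) :
    ∑ v ∈ zerosFinset (K := K) x, v.ord x = Module.finrank K⟮x⟯ F := by
  have hx' : Transcendental K x⁻¹ := fun h => hx (by simpa using h.inv)
  have h := sum_ord_poles hx'
  have he : Module.finrank K⟮x⁻¹⟯ F = Module.finrank K⟮x⟯ F := by rw [adjoin_simple_inv]
  rw [he, inv_inv] at h
  rw [← h]
  exact Finset.sum_congr rfl fun v _ => by rw [v.ord_inv, neg_neg]

omit [IsAlgClosed K] [IsFunctionField1 K F] in
theorem adjoin_simple_sub_const (x : F) (c : K) : K⟮x - algebraMap K F c⟯ = K⟮x⟯ :=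
  le_antisymm
    (adjoin_simple_le_iff.mpr (sub_mem (mem_adjoin_simple_self K x) (K⟮x⟯.algebraMap_mem c)))
    (adjoin_simple_le_iff.mpr (by
      simpa using add_mem (mem_adjoin_simple_self K (x - algebraMap K F c))
        (K⟮x - algebraMap K F c⟯.algebraMap_mem c)))

omit [IsAlgClosed K] [IsFunctionField1 K F] in
theorem transcendental_sub_const {x : F} (hx : Transcendental K x) (c : K) :
    Transcendental K (x - algebraMap K F c) := fun h =>
  hx (by simpa using h.add (isAlgebraic_algebraMap c))

theorem sum_ord_zeros_sub_const {x : F} (hx : Transcendental K x) (c : K) :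
    ∑ v ∈ zerosFinset (K := K) (x - algebraMap K F c), v.ord (x - algebraMap K F c) =
      Module.finrank K⟮x⟯ F := by
  rw [sum_ord_zeros (transcendental_sub_const hx c), adjoin_simple_sub_const]

omit [IsAlgClosed K] in
theorem finrank_adjoin_pos {x : F} (hx : Transcendental K x) : 0 < Module.finrank K⟮x⟯ F :=
  have := finiteDimensional_adjoin_of_transcendental (K := K) hx
  Module.finrank_pos

theorem degree_divisorOf (f : F) : Divisor.degree (divisorOf (K := K) f) = 0 := by
  classical
  by_cases hf : Transcendental K f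
  · rw [degree_eq_sum, Finsupp.sum, ← Finset.sum_filter_add_sum_filter_not
      (divisorOf (K := K) f).support (fun v => 0 < v.ord f)]
    have h2 : ((divisorOf (K := K) f).support.filter fun v => ¬ 0 < v.ord f) =
        zerosFinset f⁻¹ := by
      ext v
      simp only [Finset.mem_filter, Finsupp.mem_support_iff, divisorOf_apply, mem_zerosFinset,
        v.ord_inv]
      omega
    rw [h2]
    simp only [divisorOf_apply]
    have hz := sum_ord_zeros hf
    have hp := sum_ord_poles hf
    rw [Finset.sum_neg_distrib] at hp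
    rw [zerosFinset] at hz
    omega
  · have h0 : divisorOf (K := K) f = 0 := Finsupp.ext fun v => by
      by_contra h
      exact hf (transcendental_of_ord_ne_zero v h)
    rw [h0, map_zero]

instance instHasPrincipalDivisors : HasPrincipalDivisors K F :=
  ⟨fun f _ => ⟨divisorOf f, divisorOf_apply f, degree_divisorOf f⟩⟩

theorem degree_eq_zero_of_isPrincipal {D : Divisor K F} (hD : D.IsPrincipal) :
    Divisor.degree D = 0 := by
  obtain ⟨f, -, hf⟩ := hD
  rw [show D = divisorOf f from Finsupp.ext hf, degree_divisorOf]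

end FermatAgent.Curve
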