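import Fermat.Agent.Curve.Basics.Place

/-!
# Function fields of one variable, finiteness
-/

set_option autoImplicit false

noncomputable section

open WithZero AlgebraicCurve IntermediateField

namespace FermatAgent.Curve

/-- `F` is a function field in one variable over `K`: finite over `K(t)` for some transcendental
`t`. (No separability is required.) -/
class IsFunctionField1 (K F : Type*) [Field K] [Field F] [Algebra K F] : Prop where
  exists_finite : ∃ t : F, Transcendental K t ∧ FiniteDimensional K⟮t⟯ F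

variable {K F : Type*} [Field K] [Field F] [Algebra K F]

theorem IsFunctionField1.of_finiteDimensional {t : F} (ht : Transcendental K t)
    [h : FiniteDimensional K⟮t⟯ F] : IsFunctionField1 K F :=
  ⟨⟨t, ht, h⟩⟩

theorem finiteDimensional_adjoin_of_transcendental [IsFunctionField1 K F] {x : F}
    (hx : Transcendental K x) : FiniteDimensional K⟮x⟯ F := by
  obtain ⟨t, ht, hfin⟩ := IsFunctionField1.exists_finite (K := K) (F := F)
  have := hfin
  have halgt : Algebra.IsAlgebraic (Algebra.adjoin K ({t} : Set F)) F :=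
    isAlgebraic_adjoin_iff_top.mp (Algebra.IsAlgebraic.of_finite K⟮t⟯ F)
  have hle : Algebra.trdeg K F ≤ 1 :=
    le_trans (Algebra.IsAlgebraic.trdeg_le_cardinalMk K ({t} : Set F) (alg := halgt))
      (by simp)
  have hind : AlgebraicIndependent K (fun _ : ({x} : Set F) => x) :=
    algebraicIndependent_unique_type_iff.mpr hx
  have htb := hind.isTranscendenceBasis_of_trdeg_le_of_finite (le_trans hle (by simp))
  have halg := htb.isAlgebraic_field
  rw [Set.range_const] at halg
  have : Algebra.EssFiniteType K F := by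
    have : Algebra.EssFiniteType K K⟮t⟯ :=
      IntermediateField.essFiniteType_iff.mpr (IntermediateField.fg_adjoin_of_finite (by simp))
    exact Algebra.EssFiniteType.comp K K⟮t⟯ F
  have : Algebra.EssFiniteType K⟮x⟯ F := Algebra.EssFiniteType.of_comp K K⟮x⟯ F
  have : Algebra.IsAlgebraic K⟮x⟯ F := halg
  exact Algebra.finite_of_essFiniteType_of_isAlgebraic

theorem essFiniteType_of_isFunctionField1 [IsFunctionField1 K F] :
    Algebra.EssFiniteType K F := by
  obtain ⟨t, ht, hfin⟩ := IsFunctionField1.exists_finite (K := K) (F := F)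
  have := hfin
  have : Algebra.EssFiniteType K K⟮t⟯ :=
    IntermediateField.essFiniteType_iff.mpr (IntermediateField.fg_adjoin_of_finite (by simp))
  exact Algebra.EssFiniteType.comp K K⟮t⟯ F

/-- `F = K(t, s)` with `s` finite and algebraic over `K(t)`. -/
theorem IsFunctionField1.of_adjoin {t : F} (ht : Transcendental K t) (s : Set F) (hs : s.Finite)
    (halg : ∀ y ∈ s, IsAlgebraic K⟮t⟯ y) (htop : adjoin K (insert t s) = ⊤) :
    IsFunctionField1 K F := by
  refine ⟨⟨t, ht, ?_⟩⟩
  have : Finite s := hs.to_subtype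
  have hfin : FiniteDimensional K⟮t⟯ (adjoin K⟮t⟯ s) :=
    finiteDimensional_adjoin fun y hy => (halg y hy).isIntegral
  have htop' : adjoin K⟮t⟯ s = ⊤ := by
    apply IntermediateField.restrictScalars_injective K
    rw [adjoin_adjoin_left, ← Set.insert_eq, htop, restrictScalars_top]
  rw [htop'] at hfin
  exact IntermediateField.topEquiv.toLinearEquiv.finiteDimensional

/-- An intermediate field `K(t, s)` of any field extension. -/
theorem IsFunctionField1.of_intermediateField_adjoin {Ω : Type*} [Field Ω] [Algebra K Ω]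
    {t : Ω} (ht : Transcendental K t) (s : Set Ω) (hs : s.Finite)
    (halg : ∀ y ∈ s, IsAlgebraic K⟮t⟯ y) {E : IntermediateField K Ω}
    (hE : E = adjoin K (insert t s)) : IsFunctionField1 K E := by
  subst hE
  set E := adjoin K (insert t s) with hE
  have hsub : ∀ y ∈ insert t s, y ∈ E := fun y hy => subset_adjoin K _ hy
  set t' : E := ⟨t, hsub t (Set.mem_insert t s)⟩ with ht'
  refine IsFunctionField1.of_adjoin (t := t')
    (fun h => ht ((isAlgebraic_algHom_iff E.val E.val.injective).mpr h))
    (Subtype.val ⁻¹' s) (hs.preimage Subtype.val_injective.injOn) (fun y hy => ?_) ?_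
  · have hmap : K⟮t'⟯.map E.val = K⟮t⟯ := by rw [adjoin_map, Set.image_singleton]; rfl
    let e : K⟮t'⟯ ≃ₐ[K] K⟮t⟯ :=
      (K⟮t'⟯.equivMap E.val).trans (IntermediateField.equivOfEq hmap)
    exact IsAlgebraic.of_ringHom_of_comp_eq e.toRingEquiv E.val.toRingHom (halg _ hy)
      e.surjective E.val.injective (RingHom.ext fun a => rfl)
  · apply IntermediateField.map_injective E.val
    rw [adjoin_map, ← AlgHom.fieldRange_eq_map, IntermediateField.fieldRange_val]
    conv_rhs => rw [hE]
    congr 1
    rw [Set.image_insert_eq]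
    ext y
    simp only [Set.mem_insert_iff, Set.mem_image, Set.mem_preimage]
    constructor
    · rintro (rfl | ⟨z, hz, rfl⟩)
      · exact Or.inl rfl
      · exact Or.inr hz
    · rintro (rfl | hy)
      · exact Or.inl rfl
      · exact Or.inr ⟨⟨y, hsub y (Set.mem_insert_of_mem t hy)⟩, hy, rfl⟩

variable [IsAlgClosed K]

theorem transcendental_iff_notMem_range {x : F} :
    Transcendental K x ↔ x ∉ Set.range (algebraMap K F) := by
  refine ⟨?_, fun h halg => h ?_⟩
  · rintro h ⟨a, rfl⟩
    exact h (isAlgebraic_algebraMap a)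
  · have hint := halg.isIntegral
    exact minpoly.mem_range_of_degree_eq_one K x
      (IsAlgClosed.degree_eq_one_of_irreducible K (minpoly.irreducible hint))

theorem transcendental_of_ord_ne_zero (v : Place K F) {x : F} (hx : v.ord x ≠ 0) :
    Transcendental K x := by
  rw [transcendental_iff_notMem_range]
  rintro ⟨a, rfl⟩
  exact hx (ord_algebraMap_const v a)

theorem mem_valuationSubring_of_isIntegral (A : ValuationSubring F) {R : Type*} [CommRing R]
    [Algebra R F] (hR : ∀ r : R, algebraMap R F r ∈ A) {f : F} (hf : IsIntegral R f) : f ∈ A := by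
  let : Algebra R A := ((algebraMap R F).codRestrict A.toSubring hR).toAlgebra
  have : IsScalarTower R A F := IsScalarTower.of_algebraMap_eq fun _ => rfl
  obtain ⟨y, hy⟩ := IsIntegrallyClosed.isIntegral_iff.mp (hf.tower_top (A := A))
  exact hy ▸ y.2

omit [IsAlgClosed K] in
theorem valuation_algebraMap_eq_one (A : ValuationSubring F)
    (hK : ∀ a : K, algebraMap K F a ∈ A) {a : K} (ha : a ≠ 0) :
    A.valuation (algebraMap K F a) = 1 := by
  refine le_antisymm ((A.valuation_le_one_iff _).mpr (hK a)) ?_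
  have h := (A.valuation_le_one_iff _).mpr (hK a⁻¹)
  rw [map_inv₀, map_inv₀] at h
  exact (inv_le_one₀ (zero_lt_iff.mpr ((Valuation.ne_zero_iff _).mpr (by simpa using ha)))).mp h

omit [IsAlgClosed K] in
theorem exists_valuation_aeval_eq (t : F) {p : Polynomial K} (hp : p ≠ 0) :
    ∃ k : ℕ, ∀ A : ValuationSubring F, (∀ a : K, algebraMap K F a ∈ A) → A.valuation t < 1 →
      A.valuation (Polynomial.aeval t p) = A.valuation t ^ k := by
  obtain ⟨q, hq, hq0⟩ := Polynomial.exists_eq_pow_rootMultiplicity_mul_and_not_dvd p hp 0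
  refine ⟨p.rootMultiplicity 0, fun A hK ht => ?_⟩
  rw [Polynomial.dvd_iff_isRoot, Polynomial.IsRoot.def] at hq0
  have h1 : A.valuation (Polynomial.aeval t q) = 1 := by
    have ht' : t ∈ A := (A.valuation_le_one_iff t).mp ht.le
    have hmem : Polynomial.aeval t q.divX ∈ A := by
      rw [Polynomial.aeval_eq_sum_range]
      exact sum_mem fun i _ => by
        rw [Algebra.smul_def]
        exact mul_mem (hK _) (pow_mem ht' i)
    have hlt : A.valuation (t * Polynomial.aeval t q.divX) <
        A.valuation (algebraMap K F (q.coeff 0)) := by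
      rw [valuation_algebraMap_eq_one A hK (by rwa [Polynomial.coeff_zero_eq_eval_zero]), map_mul]
      exact mul_lt_one_of_lt_of_le ht ((A.valuation_le_one_iff _).mpr hmem)
    have h := Valuation.map_add_eq_of_lt_right _ hlt
    rw [valuation_algebraMap_eq_one A hK (by rwa [Polynomial.coeff_zero_eq_eval_zero])] at h
    conv_lhs => rw [← q.X_mul_divX_add]
    rw [map_add, map_mul, Polynomial.aeval_X, Polynomial.aeval_C]
    exact h
  conv_lhs => rw [hq]
  simp [h1]

omit [IsAlgClosed K] in
theorem exists_valuation_mem_adjoin_eq (t : F) {c : F} (hc : c ∈ K⟮t⟯) (hc0 : c ≠ 0) :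
    ∃ k : ℤ, ∀ A : ValuationSubring F, (∀ a : K, algebraMap K F a ∈ A) → A.valuation t < 1 →
      A.valuation c = A.valuation t ^ k := by
  obtain ⟨r, s, rfl⟩ := (mem_adjoin_simple_iff K _).mp hc
  have hr : r ≠ 0 := fun h => hc0 (by simp [h])
  have hs : s ≠ 0 := fun h => hc0 (by simp [h])
  obtain ⟨i, hi⟩ := exists_valuation_aeval_eq (K := K) t hr
  obtain ⟨j, hj⟩ := exists_valuation_aeval_eq (K := K) t hs
  refine ⟨(i : ℤ) - j, fun A hK ht => ?_⟩
  rw [map_div₀, hi A hK ht, hj A hK ht]
  by_cases ht0 : A.valuation t = 0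
  · have hi0 : i = 0 := by
      by_contra hne
      have h := hi A hK ht
      rw [ht0, zero_pow hne, Valuation.zero_iff] at h
      exact hc0 (by simp [h])
    have hj0 : j = 0 := by
      by_contra hne
      have h := hj A hK ht
      rw [ht0, zero_pow hne, Valuation.zero_iff] at h
      exact hc0 (by simp [h])
    simp [hi0, hj0]
  · rw [zpow_sub₀ ht0, zpow_natCast, zpow_natCast]

variable [IsFunctionField1 K F]

theorem isPrincipalIdealRing_of_algebraMap_mem (A : ValuationSubring F)
    (hK : ∀ a : K, algebraMap K F a ∈ A) : IsPrincipalIdealRing A := by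
  by_cases hA : A = ⊤
  · subst hA
    refine ⟨fun I => ?_⟩
    by_cases hI : I = ⊥
    · exact ⟨⟨0, by simp [hI]⟩⟩
    obtain ⟨a, haI, ha0⟩ := Submodule.exists_mem_ne_zero_of_ne_bot hI
    have ha : (a : F) ≠ 0 := by simpa using ha0
    have hu : IsUnit a :=
      IsUnit.of_mul_eq_one ⟨(a : F)⁻¹, ValuationSubring.mem_top _⟩
        (Subtype.ext (mul_inv_cancel₀ ha))
    exact ⟨⟨1, by rw [Ideal.eq_top_of_isUnit_mem _ haI hu]; simp⟩⟩
  obtain ⟨x, hx⟩ : ∃ x, x ∉ A := by
    by_contra! h
    exact hA (eq_top_iff.mpr fun x _ => h x)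
  set t := x⁻¹ with ht
  have hval : A.valuation t < 1 := by
    rw [ht, map_inv₀]
    exact inv_lt_one_of_one_lt₀ (lt_of_not_ge fun h => hx ((A.valuation_le_one_iff x).mp h))
  have ht0 : t ≠ 0 := inv_ne_zero fun h => hx (h ▸ A.zero_mem)
  have htr : Transcendental K t := by
    rw [transcendental_iff_notMem_range]
    rintro ⟨a, ha⟩
    rw [← ha, valuation_algebraMap_eq_one A hK (by rintro rfl; simp [← ha] at ht0)] at hval
    exact lt_irrefl _ hval
  have := finiteDimensional_adjoin_of_transcendental (K := K) htr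
  set n := Module.finrank K⟮t⟯ F with hn
  have hvt : A.valuation t ≠ 0 := (Valuation.ne_zero_iff _).mpr ht0
  have key : ∀ a : F, a ≠ 0 → ∃ k : ℤ, A.valuation a ^ (Nat.factorial n) = A.valuation t ^ k := by
    intro a ha
    have hint : IsIntegral K⟮t⟯ a := IsIntegral.of_finite _ a
    set p := minpoly K⟮t⟯ a with hp
    have hsum : ∑ i ∈ p.support, (p.coeff i : F) * a ^ i = 0 := by
      have h := minpoly.aeval K⟮t⟯ a
      rw [Polynomial.aeval_def, Polynomial.eval₂_eq_sum, Polynomial.sum_def] at h
      exact h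
    have hne : p.support.Nonempty :=
      Polynomial.support_nonempty.mpr (minpoly.ne_zero hint)
    obtain ⟨i, hi, hmax⟩ := p.support.exists_max_image
      (fun i => A.valuation ((p.coeff i : F) * a ^ i)) hne
    obtain ⟨j, hj, hji, hjv⟩ : ∃ j ∈ p.support, j ≠ i ∧
        A.valuation ((p.coeff j : F) * a ^ j) = A.valuation ((p.coeff i : F) * a ^ i) := by
      by_contra! hall
      have h := Valuation.map_sum_eq_of_lt A.valuation
        (f := fun k => (p.coeff k : F) * a ^ k) hi
        (fun k hk => by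
          rw [Finset.mem_sdiff, Finset.mem_singleton] at hk
          exact lt_of_le_of_ne (hmax k hk.1) (hall k hk.1 hk.2))
      rw [hsum, map_zero, eq_comm, Valuation.zero_iff] at h
      exact mul_ne_zero (by simpa using Polynomial.mem_support_iff.mp hi) (pow_ne_zero _ ha) h
    have hdeg : ∀ m ∈ p.support, m ≤ n := fun m hm =>
      (Polynomial.le_natDegree_of_mem_supp m hm).trans (minpoly.natDegree_le a)
    obtain ⟨ki, hki⟩ := exists_valuation_mem_adjoin_eq t (p.coeff i).2
      (by simpa using Polynomial.mem_support_iff.mp hi)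
    obtain ⟨kj, hkj⟩ := exists_valuation_mem_adjoin_eq t (p.coeff j).2
      (by simpa using Polynomial.mem_support_iff.mp hj)
    rw [map_mul, map_mul, map_pow, map_pow, hki A hK hval, hkj A hK hval] at hjv
    set g := A.valuation a with hg
    have hg0 : g ≠ 0 := (Valuation.ne_zero_iff _).mpr ha
    have hpow : g ^ ((j : ℤ) - i) = A.valuation t ^ (ki - kj) := by
      rw [zpow_sub₀ hg0, zpow_sub₀ hvt, zpow_natCast, zpow_natCast, div_eq_div_iff
        (pow_ne_zero _ hg0) (zpow_ne_zero _ hvt), mul_comm, hjv]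
    obtain ⟨m, hm⟩ : ((j : ℤ) - i) ∣ ((Nat.factorial n : ℕ) : ℤ) := by
      rw [← Int.natAbs_dvd, Int.natCast_dvd_natCast]
      refine Nat.dvd_factorial (by omega) ?_
      have := hdeg i hi; have := hdeg j hj; omega
    refine ⟨(ki - kj) * m, ?_⟩
    rw [← zpow_natCast, hm, zpow_mul, hpow, zpow_mul]
  refine ⟨fun I => ?_⟩
  by_cases hI : I = ⊥
  · exact ⟨⟨0, by simp [hI]⟩⟩
  have hN : Nat.factorial n ≠ 0 := Nat.factorial_ne_zero n
  have hnat : ∀ a : A, a ≠ 0 →
      ∃ k : ℕ, A.valuation (a : F) ^ (Nat.factorial n) = A.valuation t ^ k := by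
    intro a ha
    obtain ⟨k, hk⟩ := key a (by simpa using ha)
    rcases Int.eq_nat_or_neg k with ⟨m, rfl | rfl⟩
    · exact ⟨m, by rw [hk, zpow_natCast]⟩
    · refine ⟨0, ?_⟩
      have h1 : A.valuation (a : F) ^ (Nat.factorial n) ≤ 1 :=
        pow_le_one₀ zero_le ((A.valuation_le_one_iff _).mpr a.2)
      rw [hk, zpow_neg, zpow_natCast] at h1
      rcases eq_or_ne m 0 with rfl | hm
      · simpa using hk
      · exact absurd h1 (not_le.mpr (by
          rw [one_lt_inv₀ (pow_pos (zero_lt_iff.mpr hvt) m)]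
          exact pow_lt_one₀ zero_le hval hm))
  classical
  have hex : ∃ k : ℕ, ∃ a ∈ I, a ≠ 0 ∧
      A.valuation (a : F) ^ (Nat.factorial n) = A.valuation t ^ k := by
    obtain ⟨a, haI, ha0⟩ := Submodule.exists_mem_ne_zero_of_ne_bot hI
    obtain ⟨k, hk⟩ := hnat a ha0
    exact ⟨k, a, haI, ha0, hk⟩
  obtain ⟨a, haI, ha0, hak⟩ := Nat.find_spec hex
  refine ⟨⟨a, le_antisymm (fun b hb => ?_) (by simpa [Ideal.span_le] using haI)⟩⟩
  rw [Ideal.submodule_span_eq, Ideal.mem_span_singleton]
  rcases eq_or_ne b 0 with rfl | hb0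
  · exact dvd_zero _
  obtain ⟨k, hk⟩ := hnat b hb0
  have hle : Nat.find hex ≤ k := Nat.find_min' hex ⟨b, hb, hb0, hk⟩
  have hv : A.valuation (b : F) ≤ A.valuation (a : F) :=
    le_of_pow_le_pow_left₀ hN zero_le (by
      rw [hk, hak]; exact pow_le_pow_of_le_one zero_le hval.le hle)
  have ha : (a : F) ≠ 0 := by simpa using ha0
  refine ⟨⟨(b : F) / a, (A.valuation_le_one_iff _).mp ?_⟩, Subtype.ext ?_⟩
  · rw [map_div₀, div_le_one₀ (zero_lt_iff.mpr ((Valuation.ne_zero_iff _).mpr ha))]
    exact hv
  · show (b : F) = a * (b / a)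
    rw [mul_comm, div_mul_cancel₀ _ ha]

/-- The place of a nontrivial valuation subring containing the constants. -/
def placeOfValuationSubring (A : ValuationSubring F) (hK : ∀ a : K, algebraMap K F a ∈ A)
    (hA : A ≠ ⊤) : Place K F where
  toValuationSubring := A
  algebraMap_mem' := hK
  ne_top' := hA
  isPrincipalIdealRing' := isPrincipalIdealRing_of_algebraMap_mem A hK

@[simp]
theorem placeOfValuationSubring_toValuationSubring (A : ValuationSubring F)
    (hK : ∀ a : K, algebraMap K F a ∈ A) (hA : A ≠ ⊤) :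
    (placeOfValuationSubring A hK hA).toValuationSubring = A := rfl

theorem exists_ord_pos_of_transcendental {x : F} (hx : Transcendental K x) :
    ∃ v : Place K F, 0 < v.ord x := by
  set R := Algebra.adjoin K ({x} : Set F) with hR
  set xR : R.toSubring := ⟨x, Algebra.subset_adjoin rfl⟩ with hxR
  have hI : Ideal.span {xR} ≠ ⊤ := by
    rw [ne_eq, Ideal.span_singleton_eq_top]
    rintro ⟨u, hu⟩
    have hinv : ((↑u⁻¹ : R.toSubring) : F) ∈ R := (↑u⁻¹ : R.toSubring).2
    obtain ⟨q, hq⟩ := (Algebra.adjoin_singleton_eq_range_aeval K x ▸ hinv :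
      ((↑u⁻¹ : R.toSubring) : F) ∈ (Polynomial.aeval (R := K) x).range)
    have h1 : x * ((↑u⁻¹ : R.toSubring) : F) = 1 := by
      have h := congrArg Subtype.val u.mul_inv
      rw [hu] at h
      exact h
    have h0 : Polynomial.X * q - 1 = 0 := by
      by_contra hne
      exact hx ⟨_, hne, by simpa [sub_eq_zero] using hq ▸ h1⟩
    simpa using congrArg (Polynomial.eval 0) h0
  obtain ⟨V, hV, hVI⟩ := Ideal.image_subset_nonunits_valuationSubring _ hI
  have hxV : x ∈ V.nonunits := hVI ⟨xR, Ideal.subset_span rfl, rfl⟩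
  have hx0 : x ≠ 0 := by
    rintro rfl
    exact hx isAlgebraic_zero
  have hne : V ≠ ⊤ := by
    rintro rfl
    rw [ValuationSubring.mem_nonunits_iff_exists_mem_maximalIdeal] at hxV
    obtain ⟨hm, hmax⟩ := hxV
    exact hmax (IsUnit.of_mul_eq_one ⟨x⁻¹, ValuationSubring.mem_top _⟩
      (Subtype.ext (mul_inv_cancel₀ hx0)))
  have hK : ∀ a : K, algebraMap K F a ∈ V := fun a => hV (R.algebraMap_mem a)
  refine ⟨placeOfValuationSubring V hK hne, ?_⟩
  exact ((mem_nonunits_iff_ord_pos (placeOfValuationSubring V hK hne)).mp hxV).resolve_left hx0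

theorem exists_ord_neg_of_transcendental {x : F} (hx : Transcendental K x) :
    ∃ v : Place K F, v.ord x < 0 := by
  have hx' : Transcendental K x⁻¹ := fun h => hx (by simpa using h.inv)
  obtain ⟨v, hv⟩ := exists_ord_pos_of_transcendental hx'
  rw [v.ord_inv] at hv
  exact ⟨v, by omega⟩

theorem forall_ord_nonneg_iff {f : F} :
    (∀ v : Place K F, 0 ≤ v.ord f) ↔ f ∈ Set.range (algebraMap K F) := by
  refine ⟨fun h => ?_, ?_⟩
  · by_contra hf
    obtain ⟨v, hv⟩ := exists_ord_neg_of_transcendental (transcendental_iff_notMem_range.mpr hf)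
    have := h v
    omega
  · rintro ⟨a, rfl⟩ v
    rw [ord_algebraMap_const]

theorem forall_ord_eq_zero_iff {f : F} :
    (∀ v : Place K F, v.ord f = 0) ↔ f ∈ Set.range (algebraMap K F) := by
  refine ⟨fun h => forall_ord_nonneg_iff.mp fun v => (h v).ge, ?_⟩
  rintro ⟨a, rfl⟩ v
  exact ord_algebraMap_const v a

/-- Integral closure of `K[s]` = elements without poles outside the poles of `s`. -/
theorem isIntegral_adjoin_iff (s : Set F) (f : F) :
    IsIntegral (Algebra.adjoin K s) f ↔
      ∀ v : Place K F, (∀ x ∈ s, x ∈ v.toValuationSubring) → f ∈ v.toValuationSubring := by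
  constructor
  · intro hf v hs
    refine mem_valuationSubring_of_isIntegral v.toValuationSubring (fun r => ?_) hf
    refine Algebra.adjoin_induction (p := fun y _ => y ∈ v.toValuationSubring) hs v.algebraMap_mem'
      (fun _ _ _ _ ha hb => add_mem ha hb) (fun _ _ _ _ ha hb => mul_mem ha hb) r.2
  · intro h
    set S0 : Set F := Set.range (algebraMap K F) ∪ s with hS0
    have hmem : f ∈ (integralClosure (Subring.closure S0) F).toSubring := by
      rw [← iInf_valuationSubring_superset, Subring.mem_iInf]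
      rintro ⟨V, hV⟩
      by_cases hne : V = ⊤
      · subst hne; exact ValuationSubring.mem_top f
      exact h (placeOfValuationSubring V (fun a => hV (Or.inl ⟨a, rfl⟩)) hne)
        fun y hy => hV (Or.inr hy)
    obtain ⟨p, hp, hpe⟩ := hmem
    have hle : Subring.closure S0 ≤ (Algebra.adjoin K s).toSubring := by
      rw [Subring.closure_le]
      rintro _ (⟨a, rfl⟩ | hy)
      · exact (Algebra.adjoin K s).algebraMap_mem a
      · exact Algebra.subset_adjoin hy
    refine ⟨p.map (Subring.inclusion hle), hp.map _, ?_⟩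
    rw [Polynomial.eval₂_map]
    exact hpe

instance instNonemptyPlace : Nonempty (Place K F) :=
  let ⟨_, ht, _⟩ := IsFunctionField1.exists_finite (K := K) (F := F)
  ⟨(exists_ord_pos_of_transcendental ht).choose⟩

end FermatAgent.Curve
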