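import Fermat.Agent.Curve.Basics.Along

/-!
# Transport along isomorphisms
-/

set_option autoImplicit false

noncomputable section

open WithZero AlgebraicCurve IntermediateField

namespace FermatAgent.Curve

variable {K F F' : Type*} [Field K] [Field F] [Field F'] [Algebra K F] [Algebra K F']
  [IsAlgClosed K] [IsFunctionField1 K F] [IsFunctionField1 K F']

omit [IsAlgClosed K] [IsFunctionField1 K F] [IsFunctionField1 K F'] in
theorem finrankAlong_of_bijective {φ : F →ₐ[K] F'} (h : Function.Bijective φ) :
    finrankAlong K φ = 1 := by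
  let := algebraAlong φ
  show Module.finrank F F' = 1
  rw [← Module.finrank_self F]
  exact ((AlgEquiv.ofBijective (Algebra.ofId F F') h).toLinearEquiv.finrank_eq).symm

theorem ramificationIndexAlong_of_bijective {φ : F →ₐ[K] F'} (h : Function.Bijective φ)
    (w : Place K F') : w.ramificationIndexAlong φ = 1 := by
  have hφ := isIntegralAlong φ
  have h1 := sum_ramificationIndexAlong φ hφ (w.restrictAlong φ hφ)
  rw [finrankAlong_of_bijective h] at h1
  have h2 := ramificationIndexAlong_pos φ w
  have h3 := Finset.single_le_sum (f := fun u : Place K F' => u.ramificationIndexAlong φ)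
    (fun _ _ => Nat.zero_le _)
    (Place.mem_fiberAlong.mpr rfl : w ∈ Place.fiberAlong φ hφ (w.restrictAlong φ hφ))
  omega

theorem ord_restrictAlong_of_bijective {φ : F →ₐ[K] F'} (h : Function.Bijective φ)
    (hφ : φ.toRingHom.IsIntegral) (w : Place K F') (f : F) :
    (w.restrictAlong φ hφ).ord f = w.ord (φ f) := by
  rw [w.ord_restrictAlong φ hφ, ramificationIndexAlong_of_bijective h, Nat.cast_one, one_mul]

theorem restrictAlong_bijective {φ : F →ₐ[K] F'} (h : Function.Bijective φ)
    (hφ : φ.toRingHom.IsIntegral) :
    Function.Bijective (fun w : Place K F' => w.restrictAlong φ hφ) := by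
  refine ⟨fun w w' hw => place_eq_of_ord_eq fun f => ?_, exists_restrictAlong_eq φ hφ⟩
  obtain ⟨g, rfl⟩ := h.2 f
  rw [← ord_restrictAlong_of_bijective h hφ, ← ord_restrictAlong_of_bijective h hφ]
  exact congrArg (fun u => u.ord g) hw

/-- Transport of places along an isomorphism of function fields. -/
def placeEquiv (e : F ≃ₐ[K] F') : Place K F' ≃ Place K F :=
  Equiv.ofBijective _
    (restrictAlong_bijective (φ := (e : F →ₐ[K] F')) e.bijective (isIntegralAlong _))

theorem ord_placeEquiv (e : F ≃ₐ[K] F') (w : Place K F') (f : F) :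
    (placeEquiv e w).ord f = w.ord (e f) :=
  ord_restrictAlong_of_bijective (φ := (e : F →ₐ[K] F')) e.bijective (isIntegralAlong _) w f

end FermatAgent.Curve
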