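import Fermat.Agent.Curve.Basics.Degree

/-!
# Differentials of separating elements; curves (`IsCurveOver`) are function fields
-/

set_option autoImplicit false

noncomputable section

open WithZero AlgebraicCurve IntermediateField
open scoped TensorProduct

namespace FermatAgent.Curve

variable {K F : Type*} [Field K] [Field F] [Algebra K F]

/-- For a separably generated extension the differentials of a separating transcendence basis
form a basis of `Ω`. -/
theorem exists_kaehlerBasis {ι : Type*} {x : ι → F} (hx : AlgebraicIndependent K x)
    [Algebra.IsSeparable (adjoin K (Set.range x)) F] :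
    ∃ b : Module.Basis ι F (Ω[F⁄K]), ∀ i, b i = KaehlerDifferential.D K F (x i) := by
  let P := MvPolynomial ι K
  let E := adjoin K (Set.range x)
  let : Algebra P F := (MvPolynomial.aeval x).toRingHom.toAlgebra
  have : IsScalarTower K P F := IsScalarTower.of_algebraMap_eq fun a =>
    ((MvPolynomial.aeval x).commutes a).symm
  let : Algebra P E :=
    (hx.aevalEquivField.toRingHom.comp (algebraMap P (FractionRing P))).toAlgebra
  have : IsScalarTower P E F := IsScalarTower.of_algebraMap_eq fun p =>
    (hx.aevalEquivField_algebraMap_apply_coe p).symm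
  let e : FractionRing P ≃ₐ[P] E :=
    AlgEquiv.ofRingEquiv (f := hx.aevalEquivField.toRingEquiv) fun _ => rfl
  have : IsFractionRing P E := IsLocalization.isLocalization_of_algEquiv (nonZeroDivisors P) e
  have : Algebra.FormallyEtale P E := Algebra.FormallyEtale.of_isLocalization (nonZeroDivisors P)
  have : Algebra.FormallyEtale E F := Algebra.FormallyEtale.of_isSeparable E F
  have : Algebra.FormallyEtale P F := Algebra.FormallyEtale.comp P E F
  refine ⟨((KaehlerDifferential.mvPolynomialBasis K ι).baseChange F).map
    (KaehlerDifferential.tensorKaehlerEquivOfFormallyEtale K P F), fun i => ?_⟩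
  have h1 : KaehlerDifferential.mvPolynomialBasis K ι i =
      KaehlerDifferential.D K P (MvPolynomial.X i) :=
    (KaehlerDifferential.mvPolynomialBasis K ι).repr.injective (by simp [P])
  rw [Module.Basis.map_apply, Module.Basis.baseChange_apply, h1,
    KaehlerDifferential.tensorKaehlerEquivOfFormallyEtale_apply,
    KaehlerDifferential.mapBaseChange_tmul, one_smul, KaehlerDifferential.map_D]
  exact congrArg (KaehlerDifferential.D K F) (MvPolynomial.aeval_X x i)

theorem exists_kaehlerBasis_singleton {t : F} (ht : Transcendental K t)
    [Algebra.IsSeparable K⟮t⟯ F] :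
    ∃ b : Module.Basis Unit F (Ω[F⁄K]), b () = KaehlerDifferential.D K F t := by
  have hind : AlgebraicIndependent K (fun _ : Unit => t) :=
    algebraicIndependent_unique_type_iff.mpr ht
  have hrange : Set.range (fun _ : Unit => t) = {t} := Set.range_const
  have : Algebra.IsSeparable (adjoin K (Set.range fun _ : Unit => t)) F := by
    rw [hrange]; infer_instance
  obtain ⟨b, hb⟩ := exists_kaehlerBasis hind
  exact ⟨b, hb ()⟩

theorem span_D_eq_top {t : F} (ht : Transcendental K t) [Algebra.IsSeparable K⟮t⟯ F] :
    Submodule.span F {KaehlerDifferential.D K F t} = ⊤ := by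
  obtain ⟨b, hb⟩ := exists_kaehlerBasis_singleton ht
  rw [← hb, ← b.span_eq, Set.range_unique]

theorem D_ne_zero {t : F} (ht : Transcendental K t) [Algebra.IsSeparable K⟮t⟯ F] :
    KaehlerDifferential.D K F t ≠ 0 := by
  obtain ⟨b, hb⟩ := exists_kaehlerBasis_singleton ht
  exact hb ▸ b.ne_zero ()

/-- In characteristic zero every transcendental element is separating. -/
theorem isSeparable_adjoin [CharZero K] [IsFunctionField1 K F] {x : F}
    (hx : Transcendental K x) : Algebra.IsSeparable K⟮x⟯ F :=
  have : CharZero K⟮x⟯ := charZero_of_injective_algebraMap (algebraMap K K⟮x⟯).injective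
  have := finiteDimensional_adjoin_of_transcendental (K := K) hx
  Algebra.IsAlgebraic.isSeparable_of_perfectField

/-- Converse: an essentially finite type curve (in the Prelude's sense) is a function field. -/
theorem isFunctionField1_of_isCurveOver [PerfectField K] [IsCurveOver K F]
    [Algebra.EssFiniteType K F] : IsFunctionField1 K F := by
  obtain ⟨s, hs, hsep⟩ := exists_isTranscendenceBasis_and_isSeparable_of_perfectField K F
  have hrange : Set.range (Subtype.val : {a // a ∈ s} → F) = (s : Set F) := Subtype.range_coe
  have : Algebra.IsSeparable (adjoin K (Set.range (Subtype.val : {a // a ∈ s} → F))) F := by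
    rw [hrange]; exact hsep
  obtain ⟨b, -⟩ := exists_kaehlerBasis hs.1
  have hcard := Module.finrank_eq_card_basis b
  rw [IsCurveOver.finrank_kaehler, Fintype.card_coe] at hcard
  obtain ⟨t, rfl⟩ := Finset.card_eq_one.mp hcard.symm
  refine ⟨⟨t, hs.1.transcendental ⟨t, Finset.mem_singleton_self t⟩, ?_⟩⟩
  have : Algebra.EssFiniteType K⟮t⟯ F := Algebra.EssFiniteType.of_comp K K⟮t⟯ F
  have halg : Algebra.IsAlgebraic K⟮t⟯ F := by
    have h := hs.isAlgebraic_field
    rwa [hrange, Finset.coe_singleton] at h
  exact Algebra.finite_of_essFiniteType_of_isAlgebraic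

end FermatAgent.Curve
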