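import Mathlib
import Fermat.Prelude.Def_AlgebraicCurve_Repartitions

/-!
# Elementary theory of places (arbitrary constant field)
-/

set_option autoImplicit false

noncomputable section

open WithZero AlgebraicCurve

namespace FermatAgent.Curve

variable {K F : Type*} [Field K] [Field F] [Algebra K F] (v : Place K F)

theorem mem_iff_adicValuation_le_one {f : F} :
    f ∈ v.toValuationSubring ↔ v.adicValuation f ≤ 1 := by
  refine ⟨v.adicValuation_le_one_of_mem, fun h => ?_⟩
  by_contra hf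
  have hf0 : f ≠ 0 := fun h0 => hf (h0 ▸ zero_mem _)
  have hi : f⁻¹ ∈ v.toValuationSubring := (v.toValuationSubring.mem_or_inv_mem f).resolve_left hf
  have h1 : v.adicValuation f = 1 := by
    refine le_antisymm h ?_
    have h2 := v.adicValuation_le_one_of_mem hi
    rw [map_inv₀] at h2
    exact (inv_le_one₀ (zero_lt_iff.mpr (v.adicValuation_ne_zero hf0))).mp h2
  have hu : IsUnit (⟨f⁻¹, hi⟩ : v.toValuationSubring) := by
    rw [← v.adicValuation_coe_eq_one_iff]
    show v.adicValuation f⁻¹ = 1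
    rw [map_inv₀, h1, inv_one]
  obtain ⟨b, hb⟩ := isUnit_iff_exists_inv.mp hu
  have hb' : f⁻¹ * (b : F) = 1 := congrArg Subtype.val hb
  have hbf : (b : F) = f := by
    calc (b : F) = f * (f⁻¹ * (b : F)) := by rw [← mul_assoc, mul_inv_cancel₀ hf0, one_mul]
      _ = f := by rw [hb', mul_one]
  exact hf (hbf ▸ b.2)

theorem mem_iff_ord_nonneg {f : F} : f ∈ v.toValuationSubring ↔ f = 0 ∨ 0 ≤ v.ord f :=
  (mem_iff_adicValuation_le_one v).trans v.adicValuation_le_one_iff

theorem mem_iff_ord_nonneg' {f : F} : f ∈ v.toValuationSubring ↔ 0 ≤ v.ord f := by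
  rw [mem_iff_ord_nonneg]
  exact ⟨fun h => h.elim (fun h0 => by simp [h0]) id, Or.inr⟩

theorem ord_neg_of_notMem {f : F} (hf : f ∉ v.toValuationSubring) : v.ord f < 0 := by
  rw [mem_iff_ord_nonneg'] at hf
  omega

theorem ord_nonneg_of_mem' {f : F} (hf : f ∈ v.toValuationSubring) : 0 ≤ v.ord f :=
  (mem_iff_ord_nonneg' v).mp hf

theorem mem_nonunits_iff_ord_pos {f : F} :
    f ∈ v.toValuationSubring.nonunits ↔ f = 0 ∨ 0 < v.ord f := by
  rcases eq_or_ne f 0 with rfl | hf
  · simp
  rw [ValuationSubring.mem_nonunits_iff_exists_mem_maximalIdeal]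
  simp only [hf, false_or]
  constructor
  · rintro ⟨hm, h⟩
    have h0 := ord_nonneg_of_mem' v hm
    rcases eq_or_lt_of_le h0 with h1 | h1
    · exfalso
      have : v.adicValuation f = 1 := by
        rw [v.adicValuation_eq_exp_neg_ord hf, ← h1]; simp
      rw [IsLocalRing.mem_maximalIdeal, mem_nonunits_iff] at h
      exact h ((v.adicValuation_coe_eq_one_iff ⟨f, hm⟩).mp this)
    · exact h1
  · intro h
    refine ⟨(mem_iff_ord_nonneg' v).mpr h.le, ?_⟩
    rw [IsLocalRing.mem_maximalIdeal, mem_nonunits_iff]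
    intro hu
    have := v.ord_coe_unit hu.unit
    rw [IsUnit.unit_spec] at this
    change v.ord f = 0 at this
    omega

theorem exists_ord_eq (n : ℤ) : ∃ f : F, f ≠ 0 ∧ v.ord f = n := by
  obtain ⟨π, hπ⟩ := IsDiscreteValuationRing.exists_irreducible v.toValuationSubring
  have h : (π : F) ≠ 0 := by simpa [ne_eq, ZeroMemClass.coe_eq_zero] using hπ.ne_zero
  exact ⟨(π : F) ^ n, zpow_ne_zero _ h, by rw [v.ord_zpow, v.ord_coe_irreducible hπ, mul_one]⟩

theorem ord_algebraMap_const (a : K) : v.ord (algebraMap K F a) = 0 := by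
  rcases eq_or_ne a 0 with rfl | ha
  · simp
  have h1 := ord_nonneg_of_mem' v (v.algebraMap_mem' a)
  have h2 := ord_nonneg_of_mem' v (v.algebraMap_mem' a⁻¹)
  rw [map_inv₀, v.ord_inv] at h2
  omega

theorem ord_neg (f : F) : v.ord (-f) = v.ord f := by
  simp only [Place.ord, Valuation.map_neg]

theorem ord_sub_comm (f g : F) : v.ord (f - g) = v.ord (g - f) := by
  rw [← ord_neg v (f - g), neg_sub]

theorem ord_pow' (f : F) (n : ℕ) : v.ord (f ^ n) = n * v.ord f := by
  rw [← zpow_natCast, v.ord_zpow]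

theorem ord_div {f g : F} (hf : f ≠ 0) (hg : g ≠ 0) : v.ord (f / g) = v.ord f - v.ord g := by
  rw [div_eq_mul_inv, v.ord_mul hf (inv_ne_zero hg), v.ord_inv, sub_eq_add_neg]

theorem ord_prod {ι : Type*} (s : Finset ι) (f : ι → F) (hf : ∀ i ∈ s, f i ≠ 0) :
    v.ord (∏ i ∈ s, f i) = ∑ i ∈ s, v.ord (f i) := by
  classical
  induction s using Finset.induction with
  | empty => simp
  | insert a s ha ih =>
    rw [Finset.prod_insert ha, Finset.sum_insert ha,
      v.ord_mul (hf a (Finset.mem_insert_self a s))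
        (Finset.prod_ne_zero_iff.mpr fun i hi => hf i (Finset.mem_insert_of_mem hi)),
      ih fun i hi => hf i (Finset.mem_insert_of_mem hi)]

theorem ord_smul_const {a : K} (ha : a ≠ 0) (f : F) : v.ord (a • f) = v.ord f := by
  rcases eq_or_ne f 0 with rfl | hf
  · simp
  rw [Algebra.smul_def, v.ord_mul (by simpa using ha) hf, ord_algebraMap_const, zero_add]

theorem min_le_ord_add {f g : F} (h : f + g ≠ 0) : min (v.ord f) (v.ord g) ≤ v.ord (f + g) := by
  rcases eq_or_ne f 0 with rfl | hf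
  · simp
  rcases eq_or_ne g 0 with rfl | hg
  · simp
  have h1 := v.adicValuation.map_add f g
  rw [v.adicValuation_eq_exp_neg_ord hf, v.adicValuation_eq_exp_neg_ord hg,
    v.adicValuation_eq_exp_neg_ord h] at h1
  simp only [le_max_iff, exp_le_exp] at h1
  omega

theorem ord_add_eq_left {f g : F} (hf : f ≠ 0) (h : g = 0 ∨ v.ord f < v.ord g) :
    v.ord (f + g) = v.ord f := by
  rcases h with rfl | h
  · simp
  rcases eq_or_ne g 0 with rfl | hg
  · simp
  have hlt : v.adicValuation g < v.adicValuation f := by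
    rw [v.adicValuation_eq_exp_neg_ord hf, v.adicValuation_eq_exp_neg_ord hg, exp_lt_exp]
    omega
  simp only [Place.ord, v.adicValuation.map_add_eq_of_lt_left hlt]

theorem add_ne_zero_of_ord_lt {f g : F} (hf : f ≠ 0) (h : g = 0 ∨ v.ord f < v.ord g) :
    f + g ≠ 0 := by
  rcases h with rfl | h
  · simpa using hf
  intro h0
  have : g = -f := eq_neg_of_add_eq_zero_right h0
  rw [this, ord_neg] at h
  omega

/-- A place is determined by its valuation ring up to inclusion. -/
theorem place_eq_of_le {v w : Place K F} (h : v.toValuationSubring ≤ w.toValuationSubring) :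
    v = w := by
  refine Place.ext (le_antisymm h fun g hg => ?_)
  by_contra hgv
  apply w.ne_top'
  refine eq_top_iff.mpr fun f _ => ?_
  have hg0 : g ≠ 0 := fun h0 => hgv (h0 ▸ zero_mem _)
  have hneg := ord_neg_of_notMem v hgv
  rcases eq_or_ne f 0 with rfl | hf
  · exact zero_mem _
  -- `f * g⁻¹ ^ n` lies in `O_v` for large `n`
  set n : ℕ := (-v.ord f).toNat with hn
  have hmem : f * g⁻¹ ^ n ∈ v.toValuationSubring := by
    rw [mem_iff_ord_nonneg', v.ord_mul hf (pow_ne_zero _ (inv_ne_zero hg0)), ord_pow', v.ord_inv]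
    have h1 : (n : ℤ) ≤ (n : ℤ) * (-v.ord g) := by
      calc (n : ℤ) = (n : ℤ) * 1 := (mul_one _).symm
        _ ≤ (n : ℤ) * (-v.ord g) := by gcongr; omega
    omega
  have : f = f * g⁻¹ ^ n * g ^ n := by
    rw [mul_assoc, ← mul_pow, inv_mul_cancel₀ hg0, one_pow, mul_one]
  rw [this]
  exact mul_mem (h hmem) (pow_mem hg n)

theorem place_eq_of_ord_nonneg {v w : Place K F} (h : ∀ f : F, 0 ≤ v.ord f → 0 ≤ w.ord f) :
    v = w :=
  place_eq_of_le fun f hf => (mem_iff_ord_nonneg' w).mpr (h f (ord_nonneg_of_mem' v hf))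

theorem place_eq_of_ord_eq {v w : Place K F} (h : ∀ f : F, v.ord f = w.ord f) : v = w :=
  place_eq_of_ord_nonneg fun f hf => h f ▸ hf

theorem exists_ord_pos_neg {v w : Place K F} (h : v ≠ w) :
    ∃ y : F, y ≠ 0 ∧ 0 < v.ord y ∧ w.ord y < 0 := by
  obtain ⟨a, hav, haw⟩ : ∃ a, a ∈ v.toValuationSubring ∧ a ∉ w.toValuationSubring := by
    by_contra! hle
    exact h (place_eq_of_le hle)
  obtain ⟨b, hbw, hbv⟩ : ∃ b, b ∈ w.toValuationSubring ∧ b ∉ v.toValuationSubring := by
    by_contra! hle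
    exact h (place_eq_of_le hle).symm
  have ha0 : a ≠ 0 := fun h0 => haw (h0 ▸ zero_mem _)
  have hb0 : b ≠ 0 := fun h0 => hbv (h0 ▸ zero_mem _)
  refine ⟨a / b, div_ne_zero ha0 hb0, ?_, ?_⟩
  · rw [ord_div v ha0 hb0]
    have := ord_nonneg_of_mem' v hav
    have := ord_neg_of_notMem v hbv
    omega
  · rw [ord_div w ha0 hb0]
    have := ord_neg_of_notMem w haw
    have := ord_nonneg_of_mem' w hbw
    omega

theorem exists_ord_pos_forall_neg (v : Place K F) (S : Finset (Place K F)) (hv : v ∉ S) :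
    ∃ z : F, z ≠ 0 ∧ 0 < v.ord z ∧ ∀ w ∈ S, w.ord z < 0 := by
  classical
  induction S using Finset.induction with
  | empty =>
    obtain ⟨f, hf, hf1⟩ := exists_ord_eq v 1
    exact ⟨f, hf, by omega, by simp⟩
  | insert u S hu ih =>
    simp only [Finset.mem_insert, not_or] at hv
    obtain ⟨z, hz0, hzv, hzS⟩ := ih hv.2
    by_cases hzu : u.ord z < 0
    · refine ⟨z, hz0, hzv, fun w hw => ?_⟩
      rcases Finset.mem_insert.mp hw with rfl | hw
      · exact hzu
      · exact hzS w hw
    obtain ⟨y, hy0, hyv, hyu⟩ := exists_ord_pos_neg hv.1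
    set r : ℕ := S.sup (fun w => (w.ord z).natAbs) + 1 with hr
    have hyr : y ^ r ≠ 0 := pow_ne_zero _ hy0
    have hu' : u.ord (y ^ r) < u.ord z := by
      rw [ord_pow']
      have : (r : ℤ) * u.ord y < 0 := mul_neg_of_pos_of_neg (by omega) hyu
      omega
    have hne : y ^ r + z ≠ 0 := add_ne_zero_of_ord_lt u hyr (Or.inr hu')
    refine ⟨y ^ r + z, hne, ?_, fun w hw => ?_⟩
    · have h1 := min_le_ord_add v hne
      have h2 : 0 < v.ord (y ^ r) := by
        rw [ord_pow']; exact mul_pos (by omega) hyv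
      omega
    rcases Finset.mem_insert.mp hw with rfl | hw
    · rw [ord_add_eq_left w hyr (Or.inr hu'), ord_pow']
      exact mul_neg_of_pos_of_neg (by omega) hyu
    · have hzw := hzS w hw
      have hle : (w.ord z).natAbs ≤ S.sup (fun w => (w.ord z).natAbs) :=
        Finset.le_sup (f := fun w => (w.ord z).natAbs) hw
      rcases lt_trichotomy (w.ord y) 0 with hy | hy | hy
      · have h1 : w.ord (y ^ r) < w.ord z := by
          rw [ord_pow']
          have : (r : ℤ) * w.ord y ≤ (r : ℤ) * (-1) := by gcongr; omega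
          omega
        rw [ord_add_eq_left w hyr (Or.inr h1)]
        omega
      · have h1 : w.ord z < w.ord (y ^ r) := by rw [ord_pow', hy, mul_zero]; exact hzw
        rw [add_comm, ord_add_eq_left w hz0 (Or.inr h1)]
        exact hzw
      · have h1 : w.ord z < w.ord (y ^ r) := by
          rw [ord_pow']
          have : 0 < (r : ℤ) * w.ord y := mul_pos (by omega) hy
          omega
        rw [add_comm, ord_add_eq_left w hz0 (Or.inr h1)]
        exact hzw

/-- Approximate idempotents. -/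
theorem exists_adicValuation_sub_one (v : Place K F) (S : Finset (Place K F)) (hv : v ∉ S)
    (N : ℕ) : ∃ e : F, v.adicValuation (e - 1) ≤ exp (-(N : ℤ)) ∧
      ∀ w ∈ S, w.adicValuation e ≤ exp (-(N : ℤ)) := by
  obtain ⟨z, hz0, hzv, hzS⟩ := exists_ord_pos_forall_neg v S hv
  set n : ℕ := N + 1 with hn
  have hzn : z ^ n ≠ 0 := pow_ne_zero _ hz0
  have hvn : v.ord (1 : F) < v.ord (z ^ n) := by
    rw [v.ord_one, ord_pow']; exact mul_pos (by omega) hzv
  have h1n : 1 + z ^ n ≠ 0 := add_ne_zero_of_ord_lt v one_ne_zero (Or.inr hvn)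
  refine ⟨(1 + z ^ n)⁻¹, ?_, fun w hw => ?_⟩
  · have he : (1 + z ^ n)⁻¹ - 1 = -(z ^ n / (1 + z ^ n)) := by field_simp; ring
    rw [he, Valuation.map_neg, v.adicValuation_le_exp_iff]
    right
    rw [ord_div v hzn h1n, ord_add_eq_left v one_ne_zero (Or.inr hvn), v.ord_one, ord_pow']
    have h3 : (n : ℤ) * 1 ≤ (n : ℤ) * v.ord z := by gcongr; omega
    omega
  · rw [w.adicValuation_le_exp_iff]
    right
    have h3 : (n : ℤ) * w.ord z ≤ (n : ℤ) * (-1) := by gcongr; have := hzS w hw; omega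
    have h2 : w.ord (z ^ n) < w.ord (1 : F) := by
      rw [w.ord_one, ord_pow']; omega
    rw [w.ord_inv, add_comm (1 : F), ord_add_eq_left w hzn (Or.inr h2), ord_pow']
    omega

theorem exists_forall_adicValuation_sub_le (S : Finset (Place K F)) (x : Place K F → F)
    (n : Place K F → ℤ) :
    ∃ f : F, ∀ w ∈ S, w.adicValuation (f - x w) ≤ exp (-(n w)) := by
  classical
  -- a uniform bound
  set B : ℕ := S.sup (fun w => (n w).natAbs + S.sup (fun u => (w.ord (x u)).natAbs)) with hB
  have hBle : ∀ w ∈ S, ∀ u ∈ S, n w - w.ord (x u) ≤ (B : ℤ) := by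
    intro w hw u hu
    have h1 : (n w).natAbs + S.sup (fun u => (w.ord (x u)).natAbs) ≤ B :=
      Finset.le_sup (f := fun w => (n w).natAbs + S.sup (fun u => (w.ord (x u)).natAbs)) hw
    have h2 : (w.ord (x u)).natAbs ≤ S.sup (fun u => (w.ord (x u)).natAbs) :=
      Finset.le_sup (f := fun u => (w.ord (x u)).natAbs) hu
    omega
  have he : ∀ u : Place K F, ∃ e : F, u.adicValuation (e - 1) ≤ exp (-(B : ℤ)) ∧
      ∀ w ∈ S.erase u, w.adicValuation e ≤ exp (-(B : ℤ)) :=
    fun u => exists_adicValuation_sub_one u (S.erase u) (Finset.notMem_erase u S) B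
  choose e he1 he2 using he
  refine ⟨∑ u ∈ S, e u * x u, fun w hw => ?_⟩
  have hsplit : ∑ u ∈ S, e u * x u - x w =
      (e w - 1) * x w + ∑ u ∈ S.erase w, e u * x u := by
    rw [← Finset.add_sum_erase S _ hw]
    ring
  have key : ∀ u ∈ S, ∀ c : F, w.adicValuation c ≤ exp (-(B : ℤ)) →
      w.adicValuation (c * x u) ≤ exp (-(n w)) := by
    intro u hu c hc
    rcases eq_or_ne (x u) 0 with h0 | h0
    · simp [h0]
    rw [map_mul, w.adicValuation_eq_exp_neg_ord h0]
    calc w.adicValuation c * exp (-w.ord (x u)) ≤ exp (-(B : ℤ)) * exp (-w.ord (x u)) := by gcongr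
      _ ≤ exp (-(n w)) := by
        rw [← exp_add, exp_le_exp]
        have := hBle w hw u hu
        omega
  rw [hsplit]
  refine Valuation.map_add_le _ (key w hw _ (he1 w)) (Valuation.map_sum_le _ fun u hu => ?_)
  exact key u (Finset.mem_of_mem_erase hu) _
    (he2 u w (Finset.mem_erase.mpr ⟨(Finset.ne_of_mem_erase hu).symm, hw⟩))

/-- Weak approximation. -/
theorem exists_forall_ord_sub_eq (S : Finset (Place K F)) (x : Place K F → F)
    (n : Place K F → ℤ) : ∃ f : F, ∀ w ∈ S, f - x w ≠ 0 ∧ w.ord (f - x w) = n w := by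
  choose u hu0 hu using fun w : Place K F => exists_ord_eq w (n w)
  obtain ⟨f, hf⟩ := exists_forall_adicValuation_sub_le S (fun w => x w + u w) (fun w => n w + 1)
  refine ⟨f, fun w hw => ?_⟩
  have h := (w.adicValuation_le_exp_iff).mp (hf w hw)
  rw [neg_neg] at h
  have hg : f - (x w + u w) = 0 ∨ w.ord (u w) < w.ord (f - (x w + u w)) :=
    h.imp id fun h => by rw [hu w]; omega
  have hfx : f - x w = u w + (f - (x w + u w)) := by ring
  rw [hfx]
  exact ⟨add_ne_zero_of_ord_lt w (hu0 w) hg, (ord_add_eq_left w (hu0 w) hg).trans (hu w)⟩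

theorem exists_forall_ord_eq (S : Finset (Place K F)) (n : Place K F → ℤ) :
    ∃ f : F, f ≠ 0 ∧ ∀ w ∈ S, w.ord f = n w := by
  obtain ⟨f, hf⟩ := exists_forall_ord_sub_eq S (fun _ => 0) n
  by_cases hS : S.Nonempty
  · obtain ⟨w, hw⟩ := hS
    refine ⟨f, by simpa using (hf w hw).1, fun w hw => by simpa using (hf w hw).2⟩
  · exact ⟨1, one_ne_zero, fun w hw => absurd ⟨w, hw⟩ hS⟩

end FermatAgent.Curve
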