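import Fermat.Agent.Curve.Basics.Defs
import Fermat.Prelude.Def_AlgebraicCurve_IsCurveOver

/-!
# Residue fields are `K`; values of functions at places
-/

set_option autoImplicit false

noncomputable section

open WithZero AlgebraicCurve IntermediateField

namespace FermatAgent.Curve

variable {K F : Type*} [Field K] [Field F] [Algebra K F] [IsAlgClosed K] [IsFunctionField1 K F]
variable (v : Place K F)

theorem exists_sub_mem_nonunits {f : F} (hf : f ∈ v.toValuationSubring) :
    ∃ a : K, f - algebraMap K F a ∈ v.toValuationSubring.nonunits := by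
  by_contra! hall
  have hval : ∀ a : K, v.toValuationSubring.valuation (f - algebraMap K F a) = 1 := fun a => by
    refine le_antisymm ((v.toValuationSubring.valuation_le_one_iff _).mpr
      (sub_mem hf (v.algebraMap_mem' a))) (not_lt.mp fun h => hall a ?_)
    exact (ValuationSubring.mem_nonunits_iff _).mpr h
  have htr : Transcendental K f := by
    rw [transcendental_iff_notMem_range]
    rintro ⟨a, rfl⟩
    simpa using hval a
  have hpoly : ∀ q : Polynomial K, q ≠ 0 →
      v.toValuationSubring.valuation (Polynomial.aeval f q) = 1 := by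
    intro q hq
    rw [(IsAlgClosed.splits q).eq_prod_roots, map_mul, map_mul, Polynomial.aeval_C,
      valuation_algebraMap_eq_one v.toValuationSubring v.algebraMap_mem'
        (Polynomial.leadingCoeff_ne_zero.mpr hq), one_mul, map_multiset_prod, map_multiset_prod,
      Multiset.map_map, Multiset.map_map]
    refine Multiset.prod_eq_one fun x hx => ?_
    obtain ⟨r, -, rfl⟩ := Multiset.mem_map.mp hx
    simpa using hval r
  have hsub : ∀ c : K⟮f⟯, algebraMap K⟮f⟯ F c ∈ v.toValuationSubring := by
    rintro ⟨c, hc⟩
    show c ∈ v.toValuationSubring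
    rcases eq_or_ne c 0 with rfl | hc0
    · exact zero_mem _
    obtain ⟨r, s, rfl⟩ := (mem_adjoin_simple_iff K _).mp hc
    rw [← ValuationSubring.valuation_le_one_iff, map_div₀,
      hpoly r (fun h => hc0 (by simp [h])), hpoly s (fun h => hc0 (by simp [h])), div_one]
  have := finiteDimensional_adjoin_of_transcendental (K := K) htr
  exact v.ne_top' (eq_top_iff.mpr fun g _ =>
    mem_valuationSubring_of_isIntegral v.toValuationSubring hsub (IsIntegral.of_finite K⟮f⟯ g))

theorem residueField_algebraMap_bijective :
    Function.Bijective (algebraMap K v.ResidueField) := by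
  refine ⟨(algebraMap K v.ResidueField).injective, fun z => ?_⟩
  obtain ⟨g, rfl⟩ := IsLocalRing.residue_surjective z
  obtain ⟨a, ha⟩ := exists_sub_mem_nonunits v g.2
  obtain ⟨hm, hmax⟩ := ValuationSubring.mem_nonunits_iff_exists_mem_maximalIdeal.mp ha
  refine ⟨a, ?_⟩
  show IsLocalRing.residue _ (algebraMap K v.toValuationSubring a) = IsLocalRing.residue _ g
  symm
  rw [← sub_eq_zero, ← map_sub]
  rw [IsLocalRing.residue_eq_zero_iff]
  exact hmax

instance instFiniteResidueField : Module.Finite K v.ResidueField :=
  Module.Finite.of_surjective (Algebra.linearMap K v.ResidueField)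
    (residueField_algebraMap_bijective v).2

theorem deg_eq_one : v.deg = 1 := v.deg_eq_one_of_isAlgClosed_of_finite

theorem exists_eq_or_ord_sub_pos {f : F} (hf : f ∈ v.toValuationSubring) :
    ∃! a : K, f = algebraMap K F a ∨ 0 < v.ord (f - algebraMap K F a) := by
  obtain ⟨a, ha⟩ := exists_sub_mem_nonunits v hf
  rw [mem_nonunits_iff_ord_pos, sub_eq_zero] at ha
  refine ⟨a, ha, fun b hb => ?_⟩
  by_contra hne
  have h0 : v.ord (algebraMap K F b - algebraMap K F a) = 0 := by
    rw [← map_sub, ord_algebraMap_const]
  have hne' : algebraMap K F b - algebraMap K F a ≠ 0 :=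
    sub_ne_zero.mpr fun h => hne ((algebraMap K F).injective h)
  rcases ha with ha | ha <;> rcases hb with hb | hb
  · exact hne' (by rw [← ha, ← hb, sub_self])
  · rw [ha, ord_sub_comm] at hb; omega
  · rw [hb] at ha; omega
  · have h1 : algebraMap K F b - algebraMap K F a =
        (f - algebraMap K F a) + -(f - algebraMap K F b) := by ring
    have h2 := min_le_ord_add v (h1 ▸ hne')
    rw [← h1, h0, ord_neg] at h2
    omega

open Classical in
/-- The value `f(v) ∈ K`; it is `0` at poles. -/
def valueAt (f : F) : K :=
  if h : f ∈ v.toValuationSubring then (exists_eq_or_ord_sub_pos v h).choose else 0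

theorem valueAt_spec {f : F} (hf : f ∈ v.toValuationSubring) :
    f = algebraMap K F (valueAt v f) ∨ 0 < v.ord (f - algebraMap K F (valueAt v f)) := by
  rw [valueAt, dif_pos hf]
  exact (exists_eq_or_ord_sub_pos v hf).choose_spec.1

theorem valueAt_eq_of {f : F} {a : K}
    (h : f = algebraMap K F a ∨ 0 < v.ord (f - algebraMap K F a)) : valueAt v f = a := by
  have hf : f ∈ v.toValuationSubring := by
    rcases h with h | h
    · exact h ▸ v.algebraMap_mem' a
    · have h' : f - algebraMap K F a ∈ v.toValuationSubring :=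
        (mem_iff_ord_nonneg' v).mpr h.le
      simpa using add_mem h' (v.algebraMap_mem' a)
  exact (exists_eq_or_ord_sub_pos v hf).unique (valueAt_spec v hf) h

@[simp]
theorem valueAt_algebraMap (a : K) : valueAt v (algebraMap K F a) = a :=
  valueAt_eq_of v (Or.inl rfl)

theorem valueAt_eq_zero_iff {f : F} (hf : f ∈ v.toValuationSubring) :
    valueAt v f = 0 ↔ f = 0 ∨ 0 < v.ord f := by
  constructor
  · intro h
    simpa [h] using valueAt_spec v hf
  · intro h
    exact valueAt_eq_of v (by simpa using h)

theorem valueAt_of_notMem {f : F} (hf : f ∉ v.toValuationSubring) : valueAt v f = 0 := by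
  rw [valueAt, dif_neg hf]

/-- Evaluation at a place, as a `K`-algebra map on its valuation ring. -/
def valueAlgHom : v.toValuationSubring →ₐ[K] K :=
  (AlgEquiv.ofBijective (Algebra.ofId K v.ResidueField)
      (residueField_algebraMap_bijective v)).symm.toAlgHom.comp
    { IsLocalRing.residue v.toValuationSubring with commutes' := fun _ => rfl }

theorem valueAlgHom_apply (f : v.toValuationSubring) : valueAlgHom v f = valueAt v (f : F) := by
  set a := valueAlgHom v f with ha
  symm
  apply valueAt_eq_of
  have h : IsLocalRing.residue v.toValuationSubring f = algebraMap K v.ResidueField a :=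
    ((AlgEquiv.ofBijective (Algebra.ofId K v.ResidueField)
      (residueField_algebraMap_bijective v)).apply_symm_apply _).symm
  have h2 : f - algebraMap K v.toValuationSubring a ∈
      IsLocalRing.maximalIdeal v.toValuationSubring := by
    rw [← IsLocalRing.residue_eq_zero_iff, map_sub, h]
    exact sub_eq_zero.mpr rfl
  have h3 : (f : F) - algebraMap K F a ∈ v.toValuationSubring.nonunits :=
    ValuationSubring.mem_nonunits_iff_exists_mem_maximalIdeal.mpr
      ⟨sub_mem f.2 (v.algebraMap_mem' a), h2⟩
  simpa [mem_nonunits_iff_ord_pos, sub_eq_zero] using h3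

theorem valueAt_add {f g : F} (hf : f ∈ v.toValuationSubring) (hg : g ∈ v.toValuationSubring) :
    valueAt v (f + g) = valueAt v f + valueAt v g := by
  simpa [valueAlgHom_apply] using map_add (valueAlgHom v) ⟨f, hf⟩ ⟨g, hg⟩

theorem valueAt_sub {f g : F} (hf : f ∈ v.toValuationSubring) (hg : g ∈ v.toValuationSubring) :
    valueAt v (f - g) = valueAt v f - valueAt v g := by
  simpa [valueAlgHom_apply] using map_sub (valueAlgHom v) ⟨f, hf⟩ ⟨g, hg⟩

theorem valueAt_mul {f g : F} (hf : f ∈ v.toValuationSubring) (hg : g ∈ v.toValuationSubring) :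
    valueAt v (f * g) = valueAt v f * valueAt v g := by
  simpa [valueAlgHom_apply] using map_mul (valueAlgHom v) ⟨f, hf⟩ ⟨g, hg⟩

theorem valueAt_inv {f : F} (hf : v.ord f = 0) : valueAt v f⁻¹ = (valueAt v f)⁻¹ := by
  rcases eq_or_ne f 0 with rfl | hf0
  · rw [inv_zero, ← map_zero (algebraMap K F), valueAt_algebraMap, inv_zero]
  have h1 : f ∈ v.toValuationSubring := (mem_iff_ord_nonneg' v).mpr hf.ge
  have h2 : f⁻¹ ∈ v.toValuationSubring :=
    (mem_iff_ord_nonneg' v).mpr (by rw [v.ord_inv]; omega)
  refine eq_inv_of_mul_eq_one_left ?_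
  rw [← valueAt_mul v h2 h1, inv_mul_cancel₀ hf0, ← map_one (algebraMap K F), valueAt_algebraMap]

theorem valueAt_pow {f : F} (hf : f ∈ v.toValuationSubring) (n : ℕ) :
    valueAt v (f ^ n) = valueAt v f ^ n := by
  simpa [valueAlgHom_apply] using map_pow (valueAlgHom v) ⟨f, hf⟩ n

theorem valueAt_aeval {f : F} (hf : f ∈ v.toValuationSubring) (p : Polynomial K) :
    valueAt v (Polynomial.aeval f p) = p.eval (valueAt v f) := by
  have h := Polynomial.aeval_algHom_apply (valueAlgHom v) ⟨f, hf⟩ p
  rw [valueAlgHom_apply, valueAlgHom_apply, Polynomial.coe_aeval_eq_eval] at h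
  rw [h]
  exact congrArg (valueAt v)
    (Polynomial.aeval_algebraMap_apply F (⟨f, hf⟩ : v.toValuationSubring) p)

end FermatAgent.Curve
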